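/-
The tame cyclotomic character, abstractly: `(K, v)` a field with a `ℚ`-valued additive valuation,
`ζ` a primitive `p`-th root of unity, `λ = ζ - 1`.
* `(p - 1) · v λ = v p`                                     (`kwn_val_lambda`);
* if `σ` preserves `v`, is trivial on the residue field and `σ ζ = ζ ^ k`, then for EVERY `z` with
  `v z = v λ` one has `v (σ z - k z) > v z`               (`kwn_tame`).
-/
import Mathlib
import Fermat.Agent.Lib.Frey.ULevelVal

set_option autoImplicit false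

namespace Fermat.Agent.Lib.KW

open Finset Fermat.Agent.Lib.Frey

variable {K : Type*} [Field K] (v : AddValuation K (WithTop ℚ))

/-- A root of unity has valuation `0`. -/
theorem kwn_val_of_pow_eq_one {ζ : K} {n : ℕ} (hn : 0 < n) (h : ζ ^ n = 1) : v ζ = 0 := by
  have hζ0 : ζ ≠ 0 := by
    rintro rfl
    rw [zero_pow hn.ne'] at h
    exact zero_ne_one h
  obtain ⟨s, hs⟩ := fuc_exists_ex v hζ0
  have h1 : v (ζ ^ n) = ((n * s : ℚ) : WithTop ℚ) := by
    rw [v.map_pow, hs, ← WithTop.coe_nsmul, nsmul_eq_mul]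
  rw [h, v.map_one] at h1
  have h2 : (0 : ℚ) = n * s := by exact_mod_cast h1
  have hn' : (n : ℚ) ≠ 0 := by exact_mod_cast hn.ne'
  have hs0 : s = 0 := by
    rcases mul_eq_zero.mp h2.symm with h | h
    · exact absurd h hn'
    · exact h
  rw [hs, hs0]; rfl

theorem kwn_val_pow_nonneg {ζ : K} (h : v ζ = 0) (i : ℕ) : (0 : WithTop ℚ) ≤ v (ζ ^ i) := by
  rw [v.map_pow, h, smul_zero]

theorem kwn_val_sum_nonneg {ι : Type*} (s : Finset ι) (f : ι → K)
    (h : ∀ i ∈ s, (0 : WithTop ℚ) ≤ v (f i)) : (0 : WithTop ℚ) ≤ v (∑ i ∈ s, f i) := by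
  classical
  induction s using Finset.induction_on with
  | empty => rw [sum_empty, v.map_zero]; exact le_top
  | insert a s ha ih =>
    rw [sum_insert ha]
    exact v.map_le_add (h a (mem_insert_self a s))
      (ih fun i hi => h i (mem_insert_of_mem hi))

theorem kwn_val_sum_pos {ι : Type*} (s : Finset ι) (f : ι → K)
    (h : ∀ i ∈ s, (0 : WithTop ℚ) < v (f i)) : (0 : WithTop ℚ) < v (∑ i ∈ s, f i) := by
  classical
  induction s using Finset.induction_on with
  | empty => rw [sum_empty, v.map_zero]; exact WithTop.top_pos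
  | insert a s ha ih =>
    rw [sum_insert ha]
    exact lt_of_lt_of_le (lt_min (h a (mem_insert_self a s))
      (ih fun i hi => h i (mem_insert_of_mem hi))) (v.map_add _ _)

theorem kwn_val_prod {ι : Type*} (s : Finset ι) (f : ι → K) :
    v (∏ i ∈ s, f i) = ∑ i ∈ s, v (f i) := by
  classical
  induction s using Finset.induction_on with
  | empty => rw [prod_empty, sum_empty, v.map_one]
  | insert a s ha ih => rw [prod_insert ha, sum_insert ha, v.map_mul, ih]

theorem kwn_lt_add_pos {s : ℚ} {x : WithTop ℚ} (hx : 0 < x) : (s : WithTop ℚ) < s + x := by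
  induction x using WithTop.recTopCoe with
  | top => rw [WithTop.add_top]; exact WithTop.coe_lt_top s
  | coe r =>
    have hr : (0 : ℚ) < r := by exact_mod_cast hx
    have : s < s + r := by linarith
    exact_mod_cast this

section zeta

variable {ζ : K}

/-- `ζ ^ k - 1 = (ζ - 1) · (1 + ζ + ⋯ + ζ^{k-1})`. -/
theorem kwn_pow_sub_one (ζ : K) (k : ℕ) : ζ ^ k - 1 = (ζ - 1) * ∑ i ∈ range k, ζ ^ i :=
  (mul_geom_sum ζ k).symm

theorem kwn_val_pow_sub_one_ge (h : v ζ = 0) (k : ℕ) : v (ζ - 1) ≤ v (ζ ^ k - 1) := by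
  rw [kwn_pow_sub_one, v.map_mul]
  exact le_add_of_nonneg_right
    (kwn_val_sum_nonneg v _ _ fun i _ => kwn_val_pow_nonneg v h i)

variable {p : ℕ}

/-- All `ζ ^ k - 1`, `p ∤ k`, have the same valuation. -/
theorem kwn_val_pow_sub_one (hp : p.Prime) (hζ : IsPrimitiveRoot ζ p) {k : ℕ} (hk : ¬ p ∣ k) :
    v (ζ ^ k - 1) = v (ζ - 1) := by
  have h0 : v ζ = 0 := kwn_val_of_pow_eq_one v hp.pos hζ.pow_eq_one
  refine le_antisymm ?_ (kwn_val_pow_sub_one_ge v h0 k)
  -- `ζ = (ζ^k)^k'` with `k k' ≡ 1 mod p`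
  have hcop : Nat.Coprime k p := (Nat.Coprime.symm ((Nat.Prime.coprime_iff_not_dvd hp).mpr hk))
  obtain ⟨k', -, hk'⟩ := Nat.exists_mul_mod_eq_one_of_coprime hcop hp.one_lt
  have h1 : (ζ ^ k) ^ k' = ζ := by
    rw [← pow_mul]
    conv_rhs => rw [← pow_one ζ]
    rw [← Nat.div_add_mod (k * k') p, hk', pow_add, pow_mul, hζ.pow_eq_one, one_pow, one_mul]
  have h0k : v (ζ ^ k) = 0 := by rw [v.map_pow, h0, smul_zero]
  have := kwn_val_pow_sub_one_ge v h0k k'
  rwa [h1] at this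

/-- `(p - 1) · v (ζ - 1) = v p`. -/
theorem kwn_val_lambda (hp : p.Prime) (hζ : IsPrimitiveRoot ζ p) :
    ∃ s : ℚ, v (ζ - 1) = s ∧ v (p : K) = (((p : ℚ) - 1) * s : ℚ) := by
  have hne : ζ - 1 ≠ 0 := sub_ne_zero.mpr (hζ.ne_one hp.one_lt)
  obtain ⟨s, hs⟩ := fuc_exists_ex v hne
  refine ⟨s, hs, ?_⟩
  obtain ⟨n, rfl⟩ : ∃ n, p = n + 1 := ⟨p - 1, (Nat.sub_add_cancel hp.pos).symm⟩
  have hprod := hζ.prod_one_sub_pow_eq_order
  have hval : ∀ k ∈ range n, v (1 - ζ ^ (k + 1)) = s := by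
    intro k hk
    rw [v.map_sub_swap, kwn_val_pow_sub_one v hp hζ, hs]
    intro hdvd
    have hlt : k + 1 < n + 1 := by
      have := mem_range.mp hk; omega
    exact absurd (Nat.le_of_dvd (Nat.succ_pos k) hdvd) (not_le.mpr hlt)
  have h2 : v (∏ k ∈ range n, (1 - ζ ^ (k + 1))) = ((n * s : ℚ) : WithTop ℚ) := by
    rw [kwn_val_prod, Finset.sum_congr rfl hval, sum_const, card_range, ← WithTop.coe_nsmul,
      nsmul_eq_mul]
  rw [hprod] at h2
  have h3 : ((n : K) + 1) = ((n + 1 : ℕ) : K) := by push_cast; rfl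
  rw [h3] at h2
  rw [h2]
  have h4 : ((n : ℚ)) * s = ((((n + 1 : ℕ) : ℚ)) - 1) * s := by push_cast; ring
  rw [h4]

/-- If `v p > 0` then `v (ζ - 1) > 0`. -/
theorem kwn_val_lambda_pos (hp : p.Prime) (hζ : IsPrimitiveRoot ζ p) (hvp : 0 < v (p : K)) :
    0 < v (ζ - 1) := by
  obtain ⟨s, hs, hps⟩ := kwn_val_lambda v hp hζ
  rw [hps] at hvp
  have h1 : (0 : ℚ) < ((p : ℚ) - 1) * s := by exact_mod_cast hvp
  have h2 : (0 : ℚ) < (p : ℚ) - 1 := by
    have : (1 : ℚ) < p := by exact_mod_cast hp.one_lt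
    linarith
  have h3 : 0 < s := by
    by_contra hcon
    have : ((p : ℚ) - 1) * s ≤ 0 := mul_nonpos_of_nonneg_of_nonpos h2.le (not_lt.mp hcon)
    linarith
  rw [hs]; exact_mod_cast h3

/-- `1 + ζ + ⋯ + ζ^{k-1} ≡ k` modulo the maximal ideal. -/
theorem kwn_geom_sub_natCast (h0 : v ζ = 0) (hpos : 0 < v (ζ - 1)) (k : ℕ) :
    0 < v (∑ i ∈ range k, ζ ^ i - (k : K)) := by
  have h1 : ∑ i ∈ range k, ζ ^ i - (k : K) = ∑ i ∈ range k, (ζ ^ i - 1) := by
    rw [sum_sub_distrib, sum_const, card_range, nsmul_eq_mul, mul_one]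
  rw [h1]
  refine kwn_val_sum_pos v _ _ fun i _ => ?_
  exact lt_of_lt_of_le hpos (kwn_val_pow_sub_one_ge v h0 i)

end zeta

/-- **The tame cyclotomic character.**  `σ` preserves `v`, acts trivially on the residue field and
`σ ζ = ζ ^ k`; then `σ z ≡ k z` modulo elements of valuation `> v z`, for every `z` with
`v z = v (ζ - 1)`. -/
theorem kwn_tame {p : ℕ} (hp : p.Prime) {ζ : K} (hζ : IsPrimitiveRoot ζ p) (hvp : 0 < v (p : K))
    (σ : K →+* K) (hσv : ∀ a, v (σ a) = v a) (hσI : ∀ a, 0 ≤ v a → 0 < v (σ a - a))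
    {k : ℕ} (hk : σ ζ = ζ ^ k) {z : K} {s : ℚ} (hs : v (ζ - 1) = s) (hz : v z = s) :
    (s : WithTop ℚ) < v (σ z - (k : K) * z) := by
  have h0 : v ζ = 0 := kwn_val_of_pow_eq_one v hp.pos hζ.pow_eq_one
  have hpos : 0 < v (ζ - 1) := kwn_val_lambda_pos v hp hζ hvp
  set l : K := ζ - 1 with hl
  have hl0 : l ≠ 0 := fuc_ne_zero_of_ex v hs
  -- `σ l - k l = l (g - k)`
  have hσl : σ l = l * ∑ i ∈ range k, ζ ^ i := by
    rw [hl, map_sub, map_one, hk, kwn_pow_sub_one]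
  have h1 : (s : WithTop ℚ) < v (σ l - (k : K) * l) := by
    have : σ l - (k : K) * l = l * (∑ i ∈ range k, ζ ^ i - (k : K)) := by rw [hσl]; ring
    rw [this, v.map_mul, hs]
    exact kwn_lt_add_pos (kwn_geom_sub_natCast v h0 hpos k)
  -- `r = z / l` is a unit
  set r : K := z / l with hr
  have hrv : v r = 0 := by
    have : v (r * l) = s := by rw [hr, div_mul_cancel₀ z hl0, hz]
    have := fuc_ex_of_mul v this hs
    rw [this]; simp
  have hσr : 0 < v (σ r - r) := hσI r hrv.ge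
  have hzr : z = r * l := by rw [hr, div_mul_cancel₀ z hl0]
  have hdecomp : σ z - (k : K) * z = (σ r - r) * σ l + r * (σ l - (k : K) * l) := by
    rw [hzr, map_mul]; ring
  rw [hdecomp]
  refine lt_of_lt_of_le (lt_min ?_ ?_) (v.map_add _ _)
  · rw [v.map_mul, hσv, hs, add_comm]
    exact kwn_lt_add_pos hσr
  · rw [v.map_mul, hrv, zero_add]
    exact h1

end Fermat.Agent.Lib.KW
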