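/-
The arithmetic heart of the supersingular-type argument at `p` (S13, local analysis at `p`):
products over Galois-stable finite sets of algebraic numbers are rational, hence have INTEGER
valuation.

`Ω` a Galois extension of `ℚ` (e.g. `AlgebraicClosure ℚ`), `v : AddValuation Ω (WithTop ℚ)` with
integer values on `ℚˣ` and `v p = 1`.
* `kwr_prod_fixed`      : a `Gal(Ω/ℚ)`-stable finset has a `Gal(Ω/ℚ)`-fixed product;
* `kwr_exists_rat`      : a fixed element is rational;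
* `kwr_val_prod_le`     : stable, nonempty, all `v ξ < 0` ⇒ `v (∏ ξ) ≤ -1`;
* `kwr_no_split`        : two disjoint nonempty stable sets of elements of negative valuation are
                          incompatible with `(p² (∏_{S₁ ∪ S₂} ξ)²)² = u`, `v u = 0`.
-/
import Mathlib
import Fermat.Agent.Lib.Frey.ULevelVal
import Fermat.Agent.Lib.KW.TameCyclo

set_option autoImplicit false

namespace Fermat.Agent.Lib.KW

open Finset Fermat.Agent.Lib.Frey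

variable {Ω : Type*} [Field Ω] [Algebra ℚ Ω]

/-- A Galois-stable finset has a Galois-fixed product. -/
theorem kwr_prod_fixed [DecidableEq Ω] (S : Finset Ω) (σ : Ω ≃ₐ[ℚ] Ω) (hS : ∀ ξ ∈ S, σ ξ ∈ S) :
    σ (∏ ξ ∈ S, ξ) = ∏ ξ ∈ S, ξ := by
  have himg : S.image σ = S := by
    refine Finset.eq_of_subset_of_card_le ?_ ?_
    · intro y hy
      obtain ⟨ξ, hξ, rfl⟩ := Finset.mem_image.mp hy
      exact hS ξ hξ
    · rw [Finset.card_image_of_injective _ σ.injective]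
  rw [map_prod]
  conv_rhs => rw [← himg]
  rw [Finset.prod_image (fun a _ b _ h => σ.injective h)]

/-- An element fixed by the whole Galois group is rational. -/
theorem kwr_exists_rat [IsGalois ℚ Ω] (x : Ω) (hx : ∀ σ : Ω ≃ₐ[ℚ] Ω, σ x = x) :
    ∃ r : ℚ, algebraMap ℚ Ω r = x :=
  (InfiniteGalois.mem_range_algebraMap_iff_fixed x).mpr hx

variable (v : AddValuation Ω (WithTop ℚ))

/-- A sum of negative values over a nonempty finset is negative. -/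
theorem kwr_sum_neg {ι : Type*} (S : Finset ι) (hne : S.Nonempty) (f : ι → WithTop ℚ)
    (h : ∀ i ∈ S, f i < 0) : ∑ i ∈ S, f i < 0 := by
  classical
  induction hne using Finset.Nonempty.cons_induction with
  | singleton a => rw [sum_singleton]; exact h a (mem_singleton_self a)
  | cons a s ha hs ih =>
    rw [sum_cons]
    have h1 : f a < 0 := h a (mem_cons_self a s)
    have h2 : ∑ i ∈ s, f i < 0 := ih fun i hi => h i (mem_cons_of_mem hi)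
    obtain ⟨r₁, hr₁, hr₁0⟩ := WithTop.lt_iff_exists_coe.mp h1
    obtain ⟨r₂, hr₂, hr₂0⟩ := WithTop.lt_iff_exists_coe.mp h2
    rw [hr₁, hr₂]
    have h1' : r₁ < 0 := by exact_mod_cast hr₁0
    have h2' : r₂ < 0 := by exact_mod_cast hr₂0
    have : r₁ + r₂ < 0 := by linarith
    exact_mod_cast this

/-- **Integer valuation of a Galois-stable product.** -/
theorem kwr_val_prod_le [IsGalois ℚ Ω] [DecidableEq Ω]
    (hrat : ∀ r : ℚ, r ≠ 0 → ∃ n : ℤ, v (algebraMap ℚ Ω r) = ((n : ℚ) : WithTop ℚ))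
    (S : Finset Ω) (hne : S.Nonempty) (hS : ∀ σ : Ω ≃ₐ[ℚ] Ω, ∀ ξ ∈ S, σ ξ ∈ S)
    (hneg : ∀ ξ ∈ S, v ξ < 0) :
    ∃ n : ℤ, n ≤ -1 ∧ v (∏ ξ ∈ S, ξ) = ((n : ℚ) : WithTop ℚ) := by
  have hlt : v (∏ ξ ∈ S, ξ) < 0 := by
    rw [kwn_val_prod]; exact kwr_sum_neg S hne _ hneg
  obtain ⟨r, hr⟩ := kwr_exists_rat (∏ ξ ∈ S, ξ) fun σ => kwr_prod_fixed S σ (hS σ)
  have hr0 : r ≠ 0 := by
    rintro rfl
    rw [map_zero] at hr
    rw [← hr, v.map_zero] at hlt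
    exact not_top_lt hlt
  obtain ⟨n, hn⟩ := hrat r hr0
  rw [hr] at hn
  refine ⟨n, ?_, hn⟩
  rw [hn] at hlt
  have h1 : ((n : ℚ)) < 0 := by exact_mod_cast hlt
  have h2 : n < 0 := by exact_mod_cast h1
  omega

/-- **No splitting.**  Two disjoint nonempty Galois-stable sets `S₁`, `S₂` of elements of negative
valuation cannot satisfy `(p² · (∏_{S₁ ∪ S₂} ξ)²)² = u` with `v u = 0`, `v p = 1`. -/
theorem kwr_no_split [IsGalois ℚ Ω] [DecidableEq Ω]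
    (hrat : ∀ r : ℚ, r ≠ 0 → ∃ n : ℤ, v (algebraMap ℚ Ω r) = ((n : ℚ) : WithTop ℚ))
    {p : ℕ} (hp : v (p : Ω) = 1) (S₁ S₂ : Finset Ω) (hdisj : Disjoint S₁ S₂)
    (hne₁ : S₁.Nonempty) (hne₂ : S₂.Nonempty)
    (hS₁ : ∀ σ : Ω ≃ₐ[ℚ] Ω, ∀ ξ ∈ S₁, σ ξ ∈ S₁) (hS₂ : ∀ σ : Ω ≃ₐ[ℚ] Ω, ∀ ξ ∈ S₂, σ ξ ∈ S₂)
    (hneg₁ : ∀ ξ ∈ S₁, v ξ < 0) (hneg₂ : ∀ ξ ∈ S₂, v ξ < 0) {u : Ω} (hu : v u = 0)
    (hPF : ((p : Ω) ^ 2 * (∏ ξ ∈ S₁ ∪ S₂, ξ) ^ 2) ^ 2 = u) : False := by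
  obtain ⟨n₁, hn₁, e₁⟩ := kwr_val_prod_le v hrat S₁ hne₁ hS₁ hneg₁
  obtain ⟨n₂, hn₂, e₂⟩ := kwr_val_prod_le v hrat S₂ hne₂ hS₂ hneg₂
  have hp' : v (p : Ω) = ((1 : ℚ) : WithTop ℚ) := by rw [hp]; rfl
  have e : v (∏ ξ ∈ S₁ ∪ S₂, ξ) = (((n₁ : ℚ) + (n₂ : ℚ) : ℚ) : WithTop ℚ) := by
    rw [Finset.prod_union hdisj]; exact fuc_ex_mul v e₁ e₂
  have e' := fuc_ex_sq v (fuc_ex_mul v (fuc_ex_sq v hp') (fuc_ex_sq v e))
  rw [hPF, hu] at e'
  have e'' : (0 : ℚ) = 2 * (2 * 1 + 2 * ((n₁ : ℚ) + (n₂ : ℚ))) := by exact_mod_cast e'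
  have h1 : (n₁ : ℚ) ≤ -1 := by exact_mod_cast hn₁
  have h2 : (n₂ : ℚ) ≤ -1 := by exact_mod_cast hn₂
  linarith

end Fermat.Agent.Lib.KW
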