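/-
`kwr_no_split` for the valuation `ford_vQ A hq hA` attached to a valuation subring over a prime `q`
of a Galois algebraic extension of `ℚ` (e.g. `AlgebraicClosure ℚ`).
-/
import Mathlib
import Fermat.Agent.Lib.Frey.Ord
import Fermat.Agent.Lib.KW.RatProd

set_option autoImplicit false

namespace Fermat.Agent.Lib.KW

open Finset Fermat.Agent.Lib.Frey

variable {K : Type*} [Field K] [CharZero K] [Algebra ℚ K] [Algebra.IsAlgebraic ℚ K]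
  {A : ValuationSubring K} {q : ℕ} (hq : q.Prime) (hA : (q : K) ∈ A.nonunits)

/-- `ford_vQ` takes integer values on `ℚˣ`. -/
theorem kwr_vQ_rat (r : ℚ) (hr : r ≠ 0) :
    ∃ n : ℤ, ford_vQ A hq hA (algebraMap ℚ K r) = ((n : ℚ) : WithTop ℚ) :=
  ⟨padicValRat q r, ford_vQ_algebraMap hq hA hr⟩

/-- Integer valuation `≤ -1` of the product over a Galois-stable nonempty finset of elements of
negative valuation. -/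
theorem kwr_val_prod_le_vQ [IsGalois ℚ K] [DecidableEq K] (S : Finset K) (hne : S.Nonempty)
    (hS : ∀ σ : K ≃ₐ[ℚ] K, ∀ ξ ∈ S, σ ξ ∈ S) (hneg : ∀ ξ ∈ S, ford_vQ A hq hA ξ < 0) :
    ∃ n : ℤ, n ≤ -1 ∧ ford_vQ A hq hA (∏ ξ ∈ S, ξ) = ((n : ℚ) : WithTop ℚ) :=
  kwr_val_prod_le _ (kwr_vQ_rat hq hA) S hne hS hneg

/-- **No splitting**, `ford_vQ` form. -/
theorem kwr_no_split_vQ [IsGalois ℚ K] [DecidableEq K] (S₁ S₂ : Finset K) (hdisj : Disjoint S₁ S₂)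
    (hne₁ : S₁.Nonempty) (hne₂ : S₂.Nonempty)
    (hS₁ : ∀ σ : K ≃ₐ[ℚ] K, ∀ ξ ∈ S₁, σ ξ ∈ S₁) (hS₂ : ∀ σ : K ≃ₐ[ℚ] K, ∀ ξ ∈ S₂, σ ξ ∈ S₂)
    (hneg₁ : ∀ ξ ∈ S₁, ford_vQ A hq hA ξ < 0) (hneg₂ : ∀ ξ ∈ S₂, ford_vQ A hq hA ξ < 0)
    {u : K} (hu : ford_vQ A hq hA u = 0)
    (hPF : ((q : K) ^ 2 * (∏ ξ ∈ S₁ ∪ S₂, ξ) ^ 2) ^ 2 = u) : False :=
  kwr_no_split _ (kwr_vQ_rat hq hA) (ford_vQ_q hq hA) S₁ S₂ hdisj hne₁ hne₂ hS₁ hS₂ hneg₁ hneg₂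
    hu hPF

end Fermat.Agent.Lib.KW
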