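/-
`kwr_no_split` with the weaker hypothesis `0 ≤ v u` (so that the PLAIN Legendre model
`fl_curve (a^p) (-b^p)`, for which only `0 ≤ v (δ ε)` holds, can be used in the supersingular-type
argument: `(PF)` gives `4 v p + 4 v (∏_S ξ) = v u ≥ 0`, i.e. `v (∏_S ξ) ≥ -1`, while two stable
sets give `≤ -2`).
-/
import Mathlib
import Fermat.Agent.Lib.KW.RatProdVQ

set_option autoImplicit false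

namespace Fermat.Agent.Lib.KW

open Finset Fermat.Agent.Lib.Frey

/-- **No splitting**, with `0 ≤ v u`. -/
theorem kwr_no_split_ge {Ω : Type*} [Field Ω] [Algebra ℚ Ω] [IsGalois ℚ Ω] [DecidableEq Ω]
    (v : AddValuation Ω (WithTop ℚ))
    (hrat : ∀ r : ℚ, r ≠ 0 → ∃ n : ℤ, v (algebraMap ℚ Ω r) = ((n : ℚ) : WithTop ℚ))
    {p : ℕ} (hp : v (p : Ω) = 1) (S₁ S₂ : Finset Ω) (hdisj : Disjoint S₁ S₂)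
    (hne₁ : S₁.Nonempty) (hne₂ : S₂.Nonempty)
    (hS₁ : ∀ σ : Ω ≃ₐ[ℚ] Ω, ∀ ξ ∈ S₁, σ ξ ∈ S₁) (hS₂ : ∀ σ : Ω ≃ₐ[ℚ] Ω, ∀ ξ ∈ S₂, σ ξ ∈ S₂)
    (hneg₁ : ∀ ξ ∈ S₁, v ξ < 0) (hneg₂ : ∀ ξ ∈ S₂, v ξ < 0) {u : Ω} (hu : 0 ≤ v u)
    (hPF : ((p : Ω) ^ 2 * (∏ ξ ∈ S₁ ∪ S₂, ξ) ^ 2) ^ 2 = u) : False := by
  obtain ⟨n₁, hn₁, e₁⟩ := kwr_val_prod_le v hrat S₁ hne₁ hS₁ hneg₁
  obtain ⟨n₂, hn₂, e₂⟩ := kwr_val_prod_le v hrat S₂ hne₂ hS₂ hneg₂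
  have hp' : v (p : Ω) = ((1 : ℚ) : WithTop ℚ) := by rw [hp]; rfl
  have e : v (∏ ξ ∈ S₁ ∪ S₂, ξ) = (((n₁ : ℚ) + (n₂ : ℚ) : ℚ) : WithTop ℚ) := by
    rw [Finset.prod_union hdisj]; exact fuc_ex_mul v e₁ e₂
  have e' := fuc_ex_sq v (fuc_ex_mul v (fuc_ex_sq v hp') (fuc_ex_sq v e))
  rw [hPF] at e'
  rw [e'] at hu
  have e'' : (0 : ℚ) ≤ 2 * (2 * 1 + 2 * ((n₁ : ℚ) + (n₂ : ℚ))) := by exact_mod_cast hu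
  have h1 : (n₁ : ℚ) ≤ -1 := by exact_mod_cast hn₁
  have h2 : (n₂ : ℚ) ≤ -1 := by exact_mod_cast hn₂
  linarith

/-- `ford_vQ` form. -/
theorem kwr_no_split_ge_vQ {K : Type*} [Field K] [CharZero K] [Algebra ℚ K]
    [Algebra.IsAlgebraic ℚ K] [IsGalois ℚ K] [DecidableEq K] {A : ValuationSubring K} {q : ℕ}
    (hq : q.Prime) (hA : (q : K) ∈ A.nonunits) (S₁ S₂ : Finset K) (hdisj : Disjoint S₁ S₂)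
    (hne₁ : S₁.Nonempty) (hne₂ : S₂.Nonempty)
    (hS₁ : ∀ σ : K ≃ₐ[ℚ] K, ∀ ξ ∈ S₁, σ ξ ∈ S₁) (hS₂ : ∀ σ : K ≃ₐ[ℚ] K, ∀ ξ ∈ S₂, σ ξ ∈ S₂)
    (hneg₁ : ∀ ξ ∈ S₁, ford_vQ A hq hA ξ < 0) (hneg₂ : ∀ ξ ∈ S₂, ford_vQ A hq hA ξ < 0)
    {u : K} (hu : 0 ≤ ford_vQ A hq hA u)
    (hPF : ((q : K) ^ 2 * (∏ ξ ∈ S₁ ∪ S₂, ξ) ^ 2) ^ 2 = u) : False :=
  kwr_no_split_ge _ (kwr_vQ_rat hq hA) (ford_vQ_q hq hA) S₁ S₂ hdisj hne₁ hne₂ hS₁ hS₂ hneg₁ hneg₂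
    hu hPF

end Fermat.Agent.Lib.KW
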