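/-
The kernel of reduction `E₁ = {O} ∪ {v X < 0}` of a GENERAL integral Weierstrass model
`Y² + a₁XY + a₃Y = X³ + a₂X² + a₄X + a₆` over a field with a `ℚ`-valued valuation `v`
(no hypothesis on `v 2`, `v 3`: residue characteristic `2` is allowed).

* `kwg_val_point`      : a point with `v x < 0` has `v x = -2r`, `v y = -3r`, `v (x / y) = r`, `r > 0`;
* `kwg_E1_add`, `kwg_E1_sub` : `E₁` is a subgroup;
* `kwg_t_add`          : `t = x / y` is additive to first order on `E₁`: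
                         `v (t (P + Q) - t P - t Q) ≥ 2r` if `v (t P), v (t Q) ≥ r > 0`;
* `kwg_t_nsmul`        : `v (t (k P) - k t(P)) ≥ 2 v (t P)`;
* `kwg_E1_torsion_free`: `E₁` has no `ℓ`-torsion if `v ℓ = 0`;
* `kwg_L2`             : the hypothesis shape `fab_HypL2 v W ℓ`.
-/
import Mathlib
import Fermat.Agent.Lib.Frey.Defs
import Fermat.Agent.Lib.Frey.Collinear
import Fermat.Agent.Lib.Frey.E1Sub
import Fermat.Agent.Lib.Frey.ULevelVal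
import Fermat.Agent.Lib.Frey.E1TorsionT

set_option autoImplicit false

namespace Fermat.Agent.Lib.KW

open WeierstrassCurve WeierstrassCurve.Affine WeierstrassCurve.Affine.Point
open Fermat.Agent.Lib.Frey

variable {K : Type*} [Field K] (v : AddValuation K (WithTop ℚ))

/-! ### valuation lemmas -/

/-- If `z² + a z` has valuation `≥ 2s` with `a` integral and `s ≤ 0`, then `v z ≥ s`. -/
theorem kwg_lb_of_sq_add {z a : K} {s : ℚ} (ha : 0 ≤ v a) (hs : s ≤ 0)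
    (h : ((2 * s : ℚ) : WithTop ℚ) ≤ v (z ^ 2 + a * z)) : (s : WithTop ℚ) ≤ v z := by
  by_contra hcon
  rw [not_le] at hcon
  obtain ⟨u, hu, hus⟩ := fab_exists_coe_of_lt hcon
  have c0 : ((0 : ℚ) : WithTop ℚ) = 0 := rfl
  have h1 : v (z ^ 2) = ((2 * u : ℚ) : WithTop ℚ) := fuc_ex_sq v hu
  have h2 : ((0 + u : ℚ) : WithTop ℚ) ≤ v (a * z) := fuc_lb_mul v (by rw [c0]; exact ha) hu.ge
  have h3 : v (z ^ 2 + a * z) = ((2 * u : ℚ) : WithTop ℚ) := fuc_ex_add v h1 h2 (by linarith)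
  have := fuc_le_of_ex_lb v h3 h
  linarith

/-- On an integral Weierstrass model, a point with `v x < 0` has `v x = -2r`, `v y = -3r`,
`r > 0`. -/
theorem kwg_val_of_E1 {x y a₁ a₂ a₃ a₄ a₆ : K} (ha1 : 0 ≤ v a₁) (ha2 : 0 ≤ v a₂)
    (ha3 : 0 ≤ v a₃) (ha4 : 0 ≤ v a₄) (ha6 : 0 ≤ v a₆)
    (heq : y ^ 2 + a₁ * x * y + a₃ * y = x ^ 3 + a₂ * x ^ 2 + a₄ * x + a₆) (hx : v x < 0) :
    ∃ r : ℚ, 0 < r ∧ v x = ((-2 * r : ℚ) : WithTop ℚ) ∧ v y = ((-3 * r : ℚ) : WithTop ℚ) := by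
  obtain ⟨w, hw, hw0⟩ := fab_exists_coe_of_lt (c := 0) (by exact_mod_cast hx)
  have c0 : ((0 : ℚ) : WithTop ℚ) = 0 := rfl
  have hx3 : v (x ^ 3) = ((3 * w : ℚ) : WithTop ℚ) := by
    have : x ^ 3 = x * x * x := by ring
    rw [this, fuc_ex_mul v (fuc_ex_mul v hw hw) hw]; congr 1; ring
  have hrest : ((2 * w : ℚ) : WithTop ℚ) ≤ v (a₂ * x ^ 2 + a₄ * x + a₆) := by
    refine fuc_lb_add v (s := 2 * w) (t := 0) ?_ (by rw [c0]; exact ha6) le_rfl (by linarith)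
    refine fuc_lb_add v (s := 0 + 2 * w) (t := 0 + w) ?_ ?_ (by linarith) (by linarith)
    · exact fuc_lb_mul v (by rw [c0]; exact ha2) (fuc_ex_sq v hw).ge
    · exact fuc_lb_mul v (by rw [c0]; exact ha4) hw.ge
  have hR : v (y * (y + (a₁ * x + a₃))) = ((3 * w : ℚ) : WithTop ℚ) := by
    have : y * (y + (a₁ * x + a₃)) = x ^ 3 + (a₂ * x ^ 2 + a₄ * x + a₆) := by
      linear_combination heq
    rw [this]
    exact fuc_ex_add v hx3 hrest (by linarith)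
  have hy0 : y ≠ 0 := left_ne_zero_of_mul (fuc_ne_zero_of_ex v hR)
  obtain ⟨u, hu⟩ := fuc_exists_ex v hy0
  have hc : ((w : ℚ) : WithTop ℚ) ≤ v (a₁ * x + a₃) :=
    fuc_lb_add v (s := 0 + w) (t := 0) (fuc_lb_mul v (by rw [c0]; exact ha1) hw.ge)
      (by rw [c0]; exact ha3) (by linarith) (by linarith)
  rcases lt_or_ge u w with huw | huw
  · have h1 : v (y + (a₁ * x + a₃)) = u := fuc_ex_add v hu hc huw
    have h2 : u + u = 3 * w := fuc_ex_unique v (fuc_ex_mul v hu h1) hR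
    refine ⟨-w / 2, by linarith, ?_, ?_⟩
    · rw [hw]; congr 1; ring
    · rw [hu]; congr 1; linarith
  · exfalso
    have h1 : ((w : ℚ) : WithTop ℚ) ≤ v (y + (a₁ * x + a₃)) := fuc_lb_add v hu.ge hc huw le_rfl
    have h2 := fuc_le_of_ex_lb v hR (fuc_lb_mul v hu.ge h1)
    linarith

/-- The third point of a line through two points of `E₁` lies in `E₁` (pure valuation form,
general integral model). -/
theorem kwg_E1_third {x₁ x₂ x₃ ℓ n a₁ a₂ a₃ a₄ a₆ : K} (ha1 : 0 ≤ v a₁) (ha2 : 0 ≤ v a₂)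
    (ha3 : 0 ≤ v a₃) (ha4 : 0 ≤ v a₄) (ha6 : 0 ≤ v a₆) (h1 : v x₁ < 0) (h2 : v x₂ < 0)
    (e1 : x₁ + x₂ + x₃ = ℓ ^ 2 + a₁ * ℓ - a₂)
    (e2 : x₁ * x₂ + x₁ * x₃ + x₂ * x₃ = a₄ - 2 * ℓ * n - a₁ * n - a₃ * ℓ)
    (e3 : x₁ * x₂ * x₃ = n ^ 2 + a₃ * n - a₆) : v x₃ < 0 := by
  by_contra h3
  rw [not_lt] at h3
  have c0 : ((0 : ℚ) : WithTop ℚ) = 0 := rfl
  have h3' : ((0 : ℚ) : WithTop ℚ) ≤ v x₃ := by rw [c0]; exact h3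
  obtain ⟨w₁, hw₁, hw₁0⟩ := fab_exists_coe_of_lt (c := 0) (by exact_mod_cast h1)
  obtain ⟨w₂, hw₂, hw₂0⟩ := fab_exists_coe_of_lt (c := 0) (by exact_mod_cast h2)
  obtain ⟨m, hm1, hm2, hm3⟩ : ∃ m : ℚ, m ≤ w₁ ∧ m ≤ w₂ ∧ w₁ + w₂ < m := by
    refine ⟨min w₁ w₂, min_le_left _ _, min_le_right _ _, ?_⟩
    rcases min_cases w₁ w₂ with ⟨h, _⟩ | ⟨h, _⟩ <;> rw [h] <;> linarith
  have h2K : (0 : WithTop ℚ) ≤ v (2 : K) := by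
    have := frd_natCast_nonneg v 2 (K := K); simpa using this
  have h12 : v (x₁ * x₂) = ((w₁ + w₂ : ℚ) : WithTop ℚ) := fuc_ex_mul v hw₁ hw₂
  have hs : ((m : ℚ) : WithTop ℚ) ≤ v (x₁ + x₂) := fuc_lb_add v hw₁.ge hw₂.ge hm1 hm2
  -- `v ℓ ≥ m / 2`
  have hℓ : ((m / 2 : ℚ) : WithTop ℚ) ≤ v ℓ := by
    refine kwg_lb_of_sq_add v ha1 (by linarith) ?_
    have : ℓ ^ 2 + a₁ * ℓ = (x₁ + x₂) + (x₃ + a₂) := by linear_combination (-1 : K) * e1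
    rw [this]
    refine fuc_lb_add v hs (fuc_lb_add v (s := 0) (t := 0) h3' (by rw [c0]; exact ha2) le_rfl le_rfl)
      (by linarith) (by linarith)
  -- `v n ≥ (w₁ + w₂) / 2`
  have hn : (((w₁ + w₂) / 2 : ℚ) : WithTop ℚ) ≤ v n := by
    refine kwg_lb_of_sq_add v ha3 (by linarith) ?_
    have : n ^ 2 + a₃ * n = x₁ * x₂ * x₃ + a₆ := by linear_combination (-1 : K) * e3
    rw [this]
    refine fuc_lb_add v (fuc_lb_mul v h12.ge h3') (by rw [c0]; exact ha6) (by linarith)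
      (by linarith)
  -- contradiction from `e2`
  have hx12 : x₁ * x₂ = a₄ - 2 * ℓ * n - a₁ * n - a₃ * ℓ - x₃ * (x₁ + x₂) := by
    linear_combination e2
  have hq : (((m + w₁ + w₂) / 2 : ℚ) : WithTop ℚ) ≤
      v (a₄ - 2 * ℓ * n - a₁ * n - a₃ * ℓ - x₃ * (x₁ + x₂)) := by
    have t1 : ((0 : ℚ) : WithTop ℚ) ≤ v a₄ := by rw [c0]; exact ha4
    have t2 : ((0 + m / 2 + (w₁ + w₂) / 2 : ℚ) : WithTop ℚ) ≤ v (2 * ℓ * n) :=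
      fuc_lb_mul v (fuc_lb_mul v (by rw [c0]; exact h2K) hℓ) hn
    have t3 : ((0 + (w₁ + w₂) / 2 : ℚ) : WithTop ℚ) ≤ v (a₁ * n) :=
      fuc_lb_mul v (by rw [c0]; exact ha1) hn
    have t4 : ((0 + m / 2 : ℚ) : WithTop ℚ) ≤ v (a₃ * ℓ) :=
      fuc_lb_mul v (by rw [c0]; exact ha3) hℓ
    have t5 : ((0 + m : ℚ) : WithTop ℚ) ≤ v (x₃ * (x₁ + x₂)) := fuc_lb_mul v h3' hs
    refine fuc_lb_sub v (s := (m + w₁ + w₂) / 2) ?_ t5 le_rfl (by linarith)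
    refine fuc_lb_sub v (s := (m + w₁ + w₂) / 2) ?_ t4 le_rfl (by linarith)
    refine fuc_lb_sub v (s := (m + w₁ + w₂) / 2) ?_ t3 le_rfl (by linarith)
    exact fuc_lb_sub v t1 t2 (by linarith) (by linarith)
  rw [← hx12] at hq
  have := fuc_le_of_ex_lb v h12 hq
  linarith

/-- The key estimate for a collinear triple of points of `E₁`, general integral model:
`v (t₁ + t₂ + t₃) ≥ r₁ + r₂ + r₃ - M` for any `M` with `r_i ≤ M ≤ r₁ + r₂ + r₃`. -/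
theorem kwg_t_sum_aux {x₁ x₂ x₃ y₁ y₂ y₃ ℓ n a₁ a₂ a₃ a₄ a₆ : K} {r₁ r₂ r₃ M : ℚ}
    (ha1 : 0 ≤ v a₁) (ha2 : 0 ≤ v a₂) (ha3 : 0 ≤ v a₃) (ha4 : 0 ≤ v a₄) (ha6 : 0 ≤ v a₆)
    (hr₁ : 0 < r₁) (hr₂ : 0 < r₂) (hr₃ : 0 < r₃)
    (hM₁ : r₁ ≤ M) (hM₂ : r₂ ≤ M) (hM₃ : r₃ ≤ M) (hMR : M ≤ r₁ + r₂ + r₃)
    (hx₁ : v x₁ = ((-2 * r₁ : ℚ) : WithTop ℚ)) (hx₂ : v x₂ = ((-2 * r₂ : ℚ) : WithTop ℚ))
    (hx₃ : v x₃ = ((-2 * r₃ : ℚ) : WithTop ℚ))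
    (hy₁ : v y₁ = ((-3 * r₁ : ℚ) : WithTop ℚ)) (hy₂ : v y₂ = ((-3 * r₂ : ℚ) : WithTop ℚ))
    (hy₃ : v y₃ = ((-3 * r₃ : ℚ) : WithTop ℚ))
    (l₁ : y₁ = ℓ * x₁ + n) (l₂ : y₂ = ℓ * x₂ + n) (l₃ : y₃ = ℓ * x₃ + n)
    (e1 : x₁ + x₂ + x₃ = ℓ ^ 2 + a₁ * ℓ - a₂)
    (e2 : x₁ * x₂ + x₁ * x₃ + x₂ * x₃ = a₄ - 2 * ℓ * n - a₁ * n - a₃ * ℓ)
    (e3 : x₁ * x₂ * x₃ = n ^ 2 + a₃ * n - a₆) :
    ((r₁ + r₂ + r₃ - M : ℚ) : WithTop ℚ) ≤ v (x₁ / y₁ + x₂ / y₂ + x₃ / y₃) := by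
  have hy₁0 : y₁ ≠ 0 := fuc_ne_zero_of_ex v hy₁
  have hy₂0 : y₂ ≠ 0 := fuc_ne_zero_of_ex v hy₂
  have hy₃0 : y₃ ≠ 0 := fuc_ne_zero_of_ex v hy₃
  set sR : ℚ := r₁ + r₂ + r₃ with hsR
  have c0 : ((0 : ℚ) : WithTop ℚ) = 0 := rfl
  -- the key identity
  have key : (x₁ / y₁ + x₂ / y₂ + x₃ / y₃) * (y₁ * y₂ * y₃) =
      a₃ * (ℓ ^ 2 * n) - 3 * a₆ * ℓ ^ 2 + 2 * a₄ * (ℓ * n) - a₁ * (ℓ * n ^ 2) - a₂ * n ^ 2 := by
    have : (x₁ / y₁ + x₂ / y₂ + x₃ / y₃) * (y₁ * y₂ * y₃) =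
        x₁ * y₂ * y₃ + x₂ * y₁ * y₃ + x₃ * y₁ * y₂ := by
      field_simp
    rw [this, l₁, l₂, l₃]
    linear_combination (3 * ℓ ^ 2) * e3 + (2 * ℓ * n) * e2 + (n ^ 2) * e1
  have h2 : (0 : WithTop ℚ) ≤ v (2 : K) := by
    have := frd_natCast_nonneg v 2 (K := K); simpa using this
  have h3 : (0 : WithTop ℚ) ≤ v (3 : K) := by
    have := frd_natCast_nonneg v 3 (K := K); simpa using this
  -- bounds on `ℓ`, `n`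
  have hℓ : ((-M : ℚ) : WithTop ℚ) ≤ v ℓ := by
    refine kwg_lb_of_sq_add v ha1 (by linarith) ?_
    have : ℓ ^ 2 + a₁ * ℓ = x₁ + x₂ + x₃ + a₂ := by linear_combination (-1 : K) * e1
    rw [this]
    refine fuc_lb_add v (s := 2 * (-M)) (t := 0) ?_ (by rw [c0]; exact ha2) le_rfl (by linarith)
    refine fuc_lb_add v (s := 2 * (-M)) (t := -2 * r₃) ?_ hx₃.ge le_rfl (by linarith)
    exact fuc_lb_add v (s := -2 * r₁) (t := -2 * r₂) hx₁.ge hx₂.ge (by linarith) (by linarith)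
  have hn : ((-sR : ℚ) : WithTop ℚ) ≤ v n := by
    refine kwg_lb_of_sq_add v ha3 (by rw [hsR]; linarith) ?_
    have : n ^ 2 + a₃ * n = x₁ * x₂ * x₃ + a₆ := by linear_combination (-1 : K) * e3
    rw [this]
    refine fuc_lb_add v (s := 2 * (-sR)) (t := 0) ?_ (by rw [c0]; exact ha6) le_rfl
      (by rw [hsR]; linarith)
    have := fuc_ex_mul v (fuc_ex_mul v hx₁ hx₂) hx₃
    rw [this]
    have : (2 * (-sR) : ℚ) ≤ -2 * r₁ + -2 * r₂ + -2 * r₃ := by rw [hsR]; linarith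
    exact_mod_cast this
  have hℓ2 : ((2 * (-M) : ℚ) : WithTop ℚ) ≤ v (ℓ ^ 2) := fuc_lb_sq v hℓ
  have hn2 : ((2 * (-sR) : ℚ) : WithTop ℚ) ≤ v (n ^ 2) := fuc_lb_sq v hn
  have hsRpos : 0 < sR := by rw [hsR]; linarith
  have hMpos : 0 < M := by linarith
  -- bound on the right-hand side
  have hR : ((-2 * sR - M : ℚ) : WithTop ℚ) ≤
      v (a₃ * (ℓ ^ 2 * n) - 3 * a₆ * ℓ ^ 2 + 2 * a₄ * (ℓ * n) - a₁ * (ℓ * n ^ 2) - a₂ * n ^ 2) := by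
    have t1 : ((0 + (2 * (-M) + -sR) : ℚ) : WithTop ℚ) ≤ v (a₃ * (ℓ ^ 2 * n)) :=
      fuc_lb_mul v (by rw [c0]; exact ha3) (fuc_lb_mul v hℓ2 hn)
    have t2 : ((0 + 0 + 2 * (-M) : ℚ) : WithTop ℚ) ≤ v (3 * a₆ * ℓ ^ 2) :=
      fuc_lb_mul v (fuc_lb_mul v (s := 0) (t := 0) (by rw [c0]; exact h3)
        (by rw [c0]; exact ha6)) hℓ2
    have t3 : ((0 + 0 + (-M + -sR) : ℚ) : WithTop ℚ) ≤ v (2 * a₄ * (ℓ * n)) :=
      fuc_lb_mul v (fuc_lb_mul v (s := 0) (t := 0) (by rw [c0]; exact h2)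
        (by rw [c0]; exact ha4)) (fuc_lb_mul v hℓ hn)
    have t4 : ((0 + (-M + 2 * (-sR)) : ℚ) : WithTop ℚ) ≤ v (a₁ * (ℓ * n ^ 2)) :=
      fuc_lb_mul v (by rw [c0]; exact ha1) (fuc_lb_mul v hℓ hn2)
    have t5 : ((0 + 2 * (-sR) : ℚ) : WithTop ℚ) ≤ v (a₂ * n ^ 2) :=
      fuc_lb_mul v (by rw [c0]; exact ha2) hn2
    refine fuc_lb_sub v (s := -2 * sR - M) ?_ t5 le_rfl (by linarith)
    refine fuc_lb_sub v (s := -2 * sR - M) ?_ t4 le_rfl (by linarith)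
    refine fuc_lb_add v (s := -2 * sR - M) ?_ t3 le_rfl (by linarith)
    exact fuc_lb_sub v t1 t2 (by linarith) (by linarith)
  rw [← key] at hR
  have hY : v (y₁ * y₂ * y₃) = ((-3 * r₁ + -3 * r₂ + -3 * r₃ : ℚ) : WithTop ℚ) :=
    fuc_ex_mul v (fuc_ex_mul v hy₁ hy₂) hy₃
  have := fuc_lb_of_mul v hR hY
  refine fuc_lb_mono v this ?_
  rw [hsR]; linarith

/-- The collinear estimate in the form used below: if `v t₁, v t₂ ≥ r` then also `v t₃ ≥ r`,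
and `v (t₁ + t₂ + t₃) ≥ 2r`. -/
theorem kwg_t_sum {x₁ x₂ x₃ y₁ y₂ y₃ ℓ n a₁ a₂ a₃ a₄ a₆ : K} {r r₁ r₂ r₃ : ℚ}
    (ha1 : 0 ≤ v a₁) (ha2 : 0 ≤ v a₂) (ha3 : 0 ≤ v a₃) (ha4 : 0 ≤ v a₄) (ha6 : 0 ≤ v a₆)
    (hr : 0 < r) (hr₁ : r ≤ r₁) (hr₂ : r ≤ r₂) (hr₃ : 0 < r₃)
    (hx₁ : v x₁ = ((-2 * r₁ : ℚ) : WithTop ℚ)) (hx₂ : v x₂ = ((-2 * r₂ : ℚ) : WithTop ℚ))
    (hx₃ : v x₃ = ((-2 * r₃ : ℚ) : WithTop ℚ))
    (hy₁ : v y₁ = ((-3 * r₁ : ℚ) : WithTop ℚ)) (hy₂ : v y₂ = ((-3 * r₂ : ℚ) : WithTop ℚ))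
    (hy₃ : v y₃ = ((-3 * r₃ : ℚ) : WithTop ℚ))
    (l₁ : y₁ = ℓ * x₁ + n) (l₂ : y₂ = ℓ * x₂ + n) (l₃ : y₃ = ℓ * x₃ + n)
    (e1 : x₁ + x₂ + x₃ = ℓ ^ 2 + a₁ * ℓ - a₂)
    (e2 : x₁ * x₂ + x₁ * x₃ + x₂ * x₃ = a₄ - 2 * ℓ * n - a₁ * n - a₃ * ℓ)
    (e3 : x₁ * x₂ * x₃ = n ^ 2 + a₃ * n - a₆) :
    r ≤ r₃ ∧ ((2 * r : ℚ) : WithTop ℚ) ≤ v (x₁ / y₁ + x₂ / y₂ + x₃ / y₃) := by
  have hr₁' : 0 < r₁ := by linarith
  have hr₂' : 0 < r₂ := by linarith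
  obtain ⟨M, hM₁, hM₂, hM₃, hMR, hMc⟩ : ∃ M : ℚ, r₁ ≤ M ∧ r₂ ≤ M ∧ r₃ ≤ M ∧ M ≤ r₁ + r₂ + r₃ ∧
      (M = r₁ ∨ M = r₂ ∨ M = r₃) := by
    refine ⟨max r₁ (max r₂ r₃), le_max_left _ _, (le_max_left _ _).trans (le_max_right _ _),
      (le_max_right _ _).trans (le_max_right _ _), ?_, ?_⟩
    · rcases max_cases r₁ (max r₂ r₃) with ⟨h, _⟩ | ⟨h, _⟩ <;>
        rcases max_cases r₂ r₃ with ⟨h', _⟩ | ⟨h', _⟩ <;> rw [h] <;> (try rw [h']) <;> linarith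
    · rcases max_cases r₁ (max r₂ r₃) with ⟨h, _⟩ | ⟨h, _⟩ <;>
        rcases max_cases r₂ r₃ with ⟨h', _⟩ | ⟨h', _⟩ <;> rw [h] <;> (try rw [h']) <;> simp
  have hsum := kwg_t_sum_aux v ha1 ha2 ha3 ha4 ha6 hr₁' hr₂' hr₃ hM₁ hM₂ hM₃ hMR hx₁ hx₂ hx₃
    hy₁ hy₂ hy₃ l₁ l₂ l₃ e1 e2 e3
  have hy₁0 : y₁ ≠ 0 := fuc_ne_zero_of_ex v hy₁
  have hy₂0 : y₂ ≠ 0 := fuc_ne_zero_of_ex v hy₂
  have hy₃0 : y₃ ≠ 0 := fuc_ne_zero_of_ex v hy₃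
  have ht : ∀ {x y : K} {ρ : ℚ}, v x = ((-2 * ρ : ℚ) : WithTop ℚ) →
      v y = ((-3 * ρ : ℚ) : WithTop ℚ) → v (x / y) = (ρ : WithTop ℚ) := by
    intro x y ρ hx hy
    have hy0 : y ≠ 0 := fuc_ne_zero_of_ex v hy
    have : v (x / y * y) = ((-2 * ρ : ℚ) : WithTop ℚ) := by rw [div_mul_cancel₀ x hy0, hx]
    rw [fuc_ex_of_mul v this hy]; congr 1; ring
  have ht₁ := ht hx₁ hy₁
  have ht₂ := ht hx₂ hy₂
  have ht₃ := ht hx₃ hy₃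
  have hr₃' : r ≤ r₃ := by
    by_contra hcon
    rw [not_le] at hcon
    have h12 : ((r : ℚ) : WithTop ℚ) ≤ v (x₁ / y₁ + x₂ / y₂) :=
      fuc_lb_add v ht₁.ge ht₂.ge hr₁ hr₂
    have hex : v (x₁ / y₁ + x₂ / y₂ + x₃ / y₃) = (r₃ : WithTop ℚ) := fuc_ex_add' v ht₃ h12 hcon
    have := fuc_le_of_ex_lb v hex hsum
    rcases hMc with h | h | h <;> rw [h] at this <;> linarith
  refine ⟨hr₃', fuc_lb_mono v hsum ?_⟩
  rcases hMc with h | h | h <;> rw [h] <;> linarith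

/-- `t (-P) ≡ - t (P)`: for `v x = -2r`, `v y = -3r`, the parameters of `(x, y)` and of
`(x, -y - a₁ x - a₃)` add up to something of valuation `≥ 2r`. -/
theorem kwg_t_neg_aux {x y a₁ a₃ : K} {r : ℚ} (ha1 : 0 ≤ v a₁) (ha3 : 0 ≤ v a₃) (hr : 0 < r)
    (hx : v x = ((-2 * r : ℚ) : WithTop ℚ)) (hy : v y = ((-3 * r : ℚ) : WithTop ℚ)) :
    v (-y - a₁ * x - a₃) = ((-3 * r : ℚ) : WithTop ℚ) ∧
      ((2 * r : ℚ) : WithTop ℚ) ≤ v (x / y + x / (-y - a₁ * x - a₃)) := by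
  have c0 : ((0 : ℚ) : WithTop ℚ) = 0 := rfl
  have hc : ((-2 * r : ℚ) : WithTop ℚ) ≤ v (a₁ * x + a₃) :=
    fuc_lb_add v (s := 0 + -2 * r) (t := 0) (fuc_lb_mul v (by rw [c0]; exact ha1) hx.ge)
      (by rw [c0]; exact ha3) (by linarith) (by linarith)
  have hny : v (-y - a₁ * x - a₃) = ((-3 * r : ℚ) : WithTop ℚ) := by
    have : -y - a₁ * x - a₃ = -y - (a₁ * x + a₃) := by ring
    rw [this]
    exact fuc_ex_sub v (by rw [v.map_neg]; exact hy) hc (by linarith)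
  refine ⟨hny, ?_⟩
  have hy0 : y ≠ 0 := fuc_ne_zero_of_ex v hy
  have hny0 : -y - a₁ * x - a₃ ≠ 0 := fuc_ne_zero_of_ex v hny
  have key : (x / y + x / (-y - a₁ * x - a₃)) * (y * (-y - a₁ * x - a₃)) =
      -(x * (a₁ * x + a₃)) := by
    generalize hd : -y - a₁ * x - a₃ = d at hny0 ⊢
    have h1 : (x / y + x / d) * (y * d) = x * d + x * y := by
      field_simp
    rw [h1, ← hd]; ring
  have h1 : ((-2 * r + -2 * r : ℚ) : WithTop ℚ) ≤ v (-(x * (a₁ * x + a₃))) := by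
    rw [v.map_neg]; exact fuc_lb_mul v hx.ge hc
  rw [← key] at h1
  have := fuc_lb_of_mul v h1 (fuc_ex_mul v hy hny)
  exact fuc_lb_mono v this (by linarith)

variable [DecidableEq K] {W : WeierstrassCurve K}

omit [DecidableEq K] in
/-- Equation of a general model. -/
theorem kwg_equation {x y : K} (h : W.toAffine.Equation x y) :
    y ^ 2 + W.a₁ * x * y + W.a₃ * y = x ^ 3 + W.a₂ * x ^ 2 + W.a₄ * x + W.a₆ := by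
  rw [Affine.equation_iff] at h
  exact h

omit [DecidableEq K] in
/-- Valuations of the coordinates and of `t` for an affine point of `E₁`. -/
theorem kwg_val_point (ha1 : 0 ≤ v W.a₁) (ha2 : 0 ≤ v W.a₂) (ha3 : 0 ≤ v W.a₃)
    (ha4 : 0 ≤ v W.a₄) (ha6 : 0 ≤ v W.a₆) {x y : K} (h : W.toAffine.Equation x y)
    (hx : v x < 0) :
    ∃ r : ℚ, 0 < r ∧ v x = ((-2 * r : ℚ) : WithTop ℚ) ∧ v y = ((-3 * r : ℚ) : WithTop ℚ) ∧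
      v (x / y) = (r : WithTop ℚ) := by
  obtain ⟨r, hr, hxr, hyr⟩ := kwg_val_of_E1 v ha1 ha2 ha3 ha4 ha6 (kwg_equation h) hx
  refine ⟨r, hr, hxr, hyr, ?_⟩
  have hy0 : y ≠ 0 := fuc_ne_zero_of_ex v hyr
  have : v (x / y * y) = ((-2 * r : ℚ) : WithTop ℚ) := by rw [div_mul_cancel₀ x hy0, hxr]
  rw [fuc_ex_of_mul v this hyr]; congr 1; ring

/-- `E₁` is closed under addition (general integral model). -/
theorem kwg_E1_add (ha1 : 0 ≤ v W.a₁) (ha2 : 0 ≤ v W.a₂) (ha3 : 0 ≤ v W.a₃)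
    (ha4 : 0 ≤ v W.a₄) (ha6 : 0 ≤ v W.a₆) {P Q : W.toAffine.Point} (hP : fl_InE1 v P)
    (hQ : fl_InE1 v Q) : fl_InE1 v (P + Q) := by
  rcases hP with rfl | ⟨x₁, y₁, hp, rfl, hx₁⟩
  · rw [zero_add]; exact hQ
  rcases hQ with rfl | ⟨x₂, y₂, hq, rfl, hx₂⟩
  · rw [add_zero]; exact Or.inr ⟨x₁, y₁, hp, rfl, hx₁⟩
  rcases hR : (Point.some x₁ y₁ hp + Point.some x₂ y₂ hq) with _ | ⟨x₃, y₃, hr⟩
  · left; rfl
  · right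
    refine ⟨x₃, y₃, hr, rfl, ?_⟩
    have hsum : Point.some x₁ y₁ hp + Point.some x₂ y₂ hq + (-(Point.some x₃ y₃ hr)) = 0 := by
      rw [hR]; exact add_neg_cancel _
    rw [neg_some] at hsum
    obtain ⟨ℓ, n, -, -, -, e1, e2, e3⟩ := fab_collinear_of_add_eq_zero hsum
    exact kwg_E1_third v (a₁ := W.a₁) (a₂ := W.a₂) (a₃ := W.a₃) (a₄ := W.a₄) (a₆ := W.a₆)
      ha1 ha2 ha3 ha4 ha6 hx₁ hx₂ (ℓ := ℓ) (n := n) e1 e2 e3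

/-- `E₁` is closed under subtraction (general integral model). -/
theorem kwg_E1_sub (ha1 : 0 ≤ v W.a₁) (ha2 : 0 ≤ v W.a₂) (ha3 : 0 ≤ v W.a₃)
    (ha4 : 0 ≤ v W.a₄) (ha6 : 0 ≤ v W.a₆) {P Q : W.toAffine.Point} (hP : fl_InE1 v P)
    (hQ : fl_InE1 v Q) : fl_InE1 v (P - Q) := by
  rw [sub_eq_add_neg]
  exact kwg_E1_add v ha1 ha2 ha3 ha4 ha6 hP (fab_E1_neg v hQ)

/-- `E₁` is closed under `k • ·`. -/
theorem kwg_E1_nsmul (ha1 : 0 ≤ v W.a₁) (ha2 : 0 ≤ v W.a₂) (ha3 : 0 ≤ v W.a₃)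
    (ha4 : 0 ≤ v W.a₄) (ha6 : 0 ≤ v W.a₆) {P : W.toAffine.Point} (hP : fl_InE1 v P) (k : ℕ) :
    fl_InE1 v (k • P) := by
  induction k with
  | zero => left; exact zero_nsmul P
  | succ k ih => rw [succ_nsmul]; exact kwg_E1_add v ha1 ha2 ha3 ha4 ha6 ih hP

/-- **`t` is additive to first order on `E₁`** (general integral model). -/
theorem kwg_t_add (ha1 : 0 ≤ v W.a₁) (ha2 : 0 ≤ v W.a₂) (ha3 : 0 ≤ v W.a₃)
    (ha4 : 0 ≤ v W.a₄) (ha6 : 0 ≤ v W.a₆) {P Q : W.toAffine.Point} (hP : fl_InE1 v P)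
    (hQ : fl_InE1 v Q) {r : ℚ} (hr : 0 < r) (hPr : (r : WithTop ℚ) ≤ v (frd_t P))
    (hQr : (r : WithTop ℚ) ≤ v (frd_t Q)) :
    ((2 * r : ℚ) : WithTop ℚ) ≤ v (frd_t (P + Q) - frd_t P - frd_t Q) := by
  rcases hP with rfl | ⟨x₁, y₁, hp, rfl, hx₁⟩
  · rw [zero_add, frd_t_zero, sub_zero, sub_self, v.map_zero]; exact le_top
  rcases hQ with rfl | ⟨x₂, y₂, hq, rfl, hx₂⟩
  · rw [add_zero, frd_t_zero, sub_zero, sub_self, v.map_zero]; exact le_top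
  obtain ⟨r₁, hr₁0, hxr₁, hyr₁, htr₁⟩ := kwg_val_point v ha1 ha2 ha3 ha4 ha6 hp.1 hx₁
  obtain ⟨r₂, hr₂0, hxr₂, hyr₂, htr₂⟩ := kwg_val_point v ha1 ha2 ha3 ha4 ha6 hq.1 hx₂
  rw [frd_t_some] at hPr hQr ⊢
  rw [frd_t_some]
  have hr₁ : r ≤ r₁ := fuc_le_of_ex_lb v htr₁ hPr
  have hr₂ : r ≤ r₂ := fuc_le_of_ex_lb v htr₂ hQr
  rcases hR : (Point.some x₁ y₁ hp + Point.some x₂ y₂ hq) with _ | ⟨x₃, y₃, hr3⟩
  · -- `Q = -P`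
    have hneg : Point.some x₂ y₂ hq = -Point.some x₁ y₁ hp :=
      (neg_eq_of_add_eq_zero_right hR).symm
    rw [neg_some, Point.some.injEq] at hneg
    obtain ⟨hxx, hyy⟩ := hneg
    change ((2 * r : ℚ) : WithTop ℚ) ≤ v (frd_t (0 : W.toAffine.Point) - x₁ / y₁ - x₂ / y₂)
    rw [frd_t_zero, hxx, hyy]
    have := (kwg_t_neg_aux v ha1 ha3 hr₁0 hxr₁ hyr₁).2
    have h2 : (0 : K) - x₁ / y₁ - x₁ / W.toAffine.negY x₁ y₁ =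
        -(x₁ / y₁ + x₁ / (-y₁ - W.a₁ * x₁ - W.a₃)) := by
      rw [Affine.negY]; ring
    rw [h2, v.map_neg]
    exact fuc_lb_mono v this (by linarith)
  · -- the generic case
    have hE1 : fl_InE1 v (Point.some x₁ y₁ hp + Point.some x₂ y₂ hq) :=
      kwg_E1_add v ha1 ha2 ha3 ha4 ha6 (Or.inr ⟨x₁, y₁, hp, rfl, hx₁⟩)
        (Or.inr ⟨x₂, y₂, hq, rfl, hx₂⟩)
    rw [hR] at hE1
    have hx₃ : v x₃ < 0 := by
      rcases hE1 with h0 | ⟨x, y, h, he, hx⟩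
      · exact absurd h0 (some_ne_zero hr3)
      · rw [Point.some.injEq] at he
        rw [he.1]; exact hx
    obtain ⟨r₃, hr₃0, hxr₃, hyr₃, htr₃⟩ := kwg_val_point v ha1 ha2 ha3 ha4 ha6 hr3.1 hx₃
    have hsum : Point.some x₁ y₁ hp + Point.some x₂ y₂ hq + (-(Point.some x₃ y₃ hr3)) = 0 := by
      rw [hR]; exact add_neg_cancel _
    rw [neg_some] at hsum
    obtain ⟨ℓ, n, l₁, l₂, l₃, e1, e2, e3⟩ := fab_collinear_of_add_eq_zero hsum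
    obtain ⟨hny, hnt⟩ := kwg_t_neg_aux v ha1 ha3 hr₃0 hxr₃ hyr₃
    have hnegY : W.toAffine.negY x₃ y₃ = -y₃ - W.a₁ * x₃ - W.a₃ := rfl
    rw [hnegY] at l₃
    obtain ⟨hr₃, hts⟩ := kwg_t_sum v (a₁ := W.a₁) (a₂ := W.a₂) (a₃ := W.a₃) (a₄ := W.a₄)
      (a₆ := W.a₆) ha1 ha2 ha3 ha4 ha6 hr hr₁ hr₂ hr₃0 hxr₁ hxr₂ hxr₃ hyr₁ hyr₂ hny l₁ l₂ l₃
      e1 e2 e3
    change ((2 * r : ℚ) : WithTop ℚ) ≤ v (frd_t (Point.some x₃ y₃ hr3) - x₁ / y₁ - x₂ / y₂)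
    rw [frd_t_some]
    have : x₃ / y₃ - x₁ / y₁ - x₂ / y₂ =
        (x₃ / y₃ + x₃ / (-y₃ - W.a₁ * x₃ - W.a₃)) -
          (x₁ / y₁ + x₂ / y₂ + x₃ / (-y₃ - W.a₁ * x₃ - W.a₃)) := by ring
    rw [this]
    exact fuc_lb_sub v hnt hts (by linarith) le_rfl

/-- **`t (k P) ≡ k t(P)` modulo elements of valuation `≥ 2 v t(P)`** (general integral model). -/
theorem kwg_t_nsmul (ha1 : 0 ≤ v W.a₁) (ha2 : 0 ≤ v W.a₂) (ha3 : 0 ≤ v W.a₃)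
    (ha4 : 0 ≤ v W.a₄) (ha6 : 0 ≤ v W.a₆) {P : W.toAffine.Point} (hP : fl_InE1 v P) {r : ℚ}
    (hr : 0 < r) (hPr : (r : WithTop ℚ) ≤ v (frd_t P)) (k : ℕ) :
    (r : WithTop ℚ) ≤ v (frd_t (k • P)) ∧
      ((2 * r : ℚ) : WithTop ℚ) ≤ v (frd_t (k • P) - (k : K) * frd_t P) := by
  induction k with
  | zero =>
    rw [zero_nsmul, frd_t_zero, Nat.cast_zero, zero_mul, sub_zero, v.map_zero]
    exact ⟨le_top, le_top⟩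
  | succ k ih =>
    obtain ⟨ih1, ih2⟩ := ih
    have hk := kwg_E1_nsmul v ha1 ha2 ha3 ha4 ha6 hP k
    have hadd := kwg_t_add v ha1 ha2 ha3 ha4 ha6 hk hP hr ih1 hPr
    rw [succ_nsmul]
    have h2 : ((2 * r : ℚ) : WithTop ℚ) ≤
        v (frd_t (k • P + P) - ((k + 1 : ℕ) : K) * frd_t P) := by
      have : frd_t (k • P + P) - ((k + 1 : ℕ) : K) * frd_t P =
          (frd_t (k • P + P) - frd_t (k • P) - frd_t P) + (frd_t (k • P) - (k : K) * frd_t P) := by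
        push_cast; ring
      rw [this]
      exact fuc_lb_add v hadd ih2 le_rfl le_rfl
    refine ⟨?_, h2⟩
    have h3 : ((0 + r : ℚ) : WithTop ℚ) ≤ v (((k + 1 : ℕ) : K) * frd_t P) :=
      fuc_lb_mul v (by exact_mod_cast frd_natCast_nonneg v (k + 1)) hPr
    have : frd_t (k • P + P) =
        (frd_t (k • P + P) - ((k + 1 : ℕ) : K) * frd_t P) + ((k + 1 : ℕ) : K) * frd_t P := by
      ring
    rw [this]
    exact fuc_lb_add v h2 h3 (by linarith) (by linarith)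

/-- The same in the shape of `frd_t_nsmul`. -/
theorem kwg_t_nsmul' (ha1 : 0 ≤ v W.a₁) (ha2 : 0 ≤ v W.a₂) (ha3 : 0 ≤ v W.a₃)
    (ha4 : 0 ≤ v W.a₄) (ha6 : 0 ≤ v W.a₆) {x y : K} (h : W.toAffine.Nonsingular x y)
    (hx : v x < 0) {r : ℚ} (hr : v (x / y) = (r : WithTop ℚ)) (k : ℕ) :
    (r : WithTop ℚ) < v (frd_t (k • Point.some x y h) - (k : K) * (x / y)) := by
  obtain ⟨r', hr'0, -, -, htr⟩ := kwg_val_point v ha1 ha2 ha3 ha4 ha6 h.1 hx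
  obtain rfl : r = r' := fuc_ex_unique v hr htr
  have hP : fl_InE1 v (Point.some x y h) := Or.inr ⟨x, y, h, rfl, hx⟩
  have := (kwg_t_nsmul v ha1 ha2 ha3 ha4 ha6 hP hr'0 (by rw [frd_t_some]; exact htr.ge) k).2
  rw [frd_t_some] at this
  refine lt_of_lt_of_le ?_ this
  have : r < 2 * r := by linarith
  exact_mod_cast this

/-- **`E₁` has no `ℓ`-torsion if `ℓ` is a unit** (general integral model, any residue
characteristic). -/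
theorem kwg_E1_torsion_free (ha1 : 0 ≤ v W.a₁) (ha2 : 0 ≤ v W.a₂) (ha3 : 0 ≤ v W.a₃)
    (ha4 : 0 ≤ v W.a₄) (ha6 : 0 ≤ v W.a₆) {ℓ : ℕ} (hℓ : v (ℓ : K) = 0)
    {P : W.toAffine.Point} (hP : fl_InE1 v P) (hℓP : ℓ • P = 0) : P = 0 := by
  rcases hP with rfl | ⟨x, y, h, rfl, hx⟩
  · rfl
  · exfalso
    obtain ⟨r, -, -, -, htr⟩ := kwg_val_point v ha1 ha2 ha3 ha4 ha6 h.1 hx
    have hlt := kwg_t_nsmul' v ha1 ha2 ha3 ha4 ha6 h hx htr ℓ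
    rw [hℓP, frd_t_zero, zero_sub, v.map_neg, v.map_mul, hℓ, zero_add, htr] at hlt
    exact lt_irrefl _ hlt

/-- The hypothesis shape `fab_HypL2` for a general integral model and a unit `ℓ`. -/
theorem kwg_L2 (ha1 : 0 ≤ v W.a₁) (ha2 : 0 ≤ v W.a₂) (ha3 : 0 ≤ v W.a₃)
    (ha4 : 0 ≤ v W.a₄) (ha6 : 0 ≤ v W.a₆) {ℓ : ℕ} (hℓ : v (ℓ : K) = 0) : fab_HypL2 v W ℓ where
  sub_mem _ _ hP hQ := kwg_E1_sub v ha1 ha2 ha3 ha4 ha6 hP hQ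
  torsion _ hP hℓP := kwg_E1_torsion_free v ha1 ha2 ha3 ha4 ha6 hℓ hP hℓP

end Fermat.Agent.Lib.KW
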