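/-
Minkowski's theorem in the Prelude's inertia language: a finite Galois extension of `ℚ` inside a
Galois extension `Ω/ℚ` on which all inertia groups `A.inertiaSubgroupIn ℚ` (valuation subrings `A`
of `Ω` over the rational primes) act trivially is `ℚ` itself.
-/
import Mathlib
import Fermat.Agent.Lib.CFT.RamBridgeGal

set_option autoImplicit false

namespace Fermat.Agent.Lib.KW

open NumberField Fermat.Agent.Lib.CFT
open scoped Pointwise

section General

variable {Ω : Type*} [Field Ω] [Algebra ℚ Ω] [IsGalois ℚ Ω]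

/-- **Minkowski, Prelude language.**  A number field `F`, Galois over `ℚ`, embedded in a Galois
extension `Ω/ℚ`, such that every inertia group of `Ω/ℚ` fixes `F` pointwise, is `ℚ`. -/
theorem kwn_finrank_eq_one {F : Type*} [Field F] [NumberField F] [Algebra F Ω] [IsGalois ℚ F]
    (h : ∀ ℓ : ℕ, ℓ.Prime → ∀ A : ValuationSubring Ω, A.LiesOverPrime ℓ →
      ∀ σ ∈ A.inertiaSubgroupIn ℚ, ∀ x : F, σ (algebraMap F Ω x) = algebraMap F Ω x) :
    Module.finrank ℚ F = 1 := by
  by_contra H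
  have hpos : 0 < Module.finrank ℚ F := Module.finrank_pos
  have H1 : 1 < Module.finrank ℚ F := by omega
  obtain ⟨p, hp, hram⟩ :=
    NumberField.exists_not_isUnramifiedAt_int_of_isGalois (K := F) (𝒪 := 𝓞 F) H1
  -- a prime of `𝓞 F` over `p`
  have hpne : Ideal.span {(p : ℤ)} ≠ ⊥ := by
    simp [hp.ne_zero]
  have : (Ideal.span {(p : ℤ)}).IsMaximal :=
    (Ideal.span_singleton_prime (by exact_mod_cast hp.ne_zero)).mpr
      (Nat.prime_iff_prime_int.mp hp) |>.isMaximal hpne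
  obtain ⟨P, hPmax, hPover⟩ :=
    Ideal.exists_ideal_over_maximal_of_isIntegral (S := 𝓞 F) (Ideal.span {(p : ℤ)}) (by
      rw [(RingHom.injective_iff_ker_eq_bot _).mp
        (FaithfulSMul.algebraMap_injective ℤ (𝓞 F))]
      exact bot_le)
  have hpP : (p : 𝓞 F) ∈ P := by
    have h1 : (p : ℤ) ∈ Ideal.comap (algebraMap ℤ (𝓞 F)) P := by
      rw [hPover]; exact Ideal.mem_span_singleton_self _
    simpa using h1
  refine hram P hPmax.isPrime hpP ?_
  -- `P` is unramified because its inertia group is trivial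
  obtain ⟨A, hA, -, hI, -⟩ := cfg_exists_valuationSubring (Ω := Ω) P hp hpP
  have hlo : P.LiesOver (P.under ℤ) := ⟨rfl⟩
  have hcard : Nat.card (P.inertia (F ≃ₐ[ℚ] F)) = 1 := by
    rw [Nat.card_eq_one_iff_unique]
    refine ⟨⟨fun a b => ?_⟩, ⟨1⟩⟩
    have key : ∀ τ : F ≃ₐ[ℚ] F, (∀ y : 𝓞 F, τ • y - y ∈ P) → τ = 1 := by
      intro τ hτ
      obtain ⟨σ, hσA, hσ⟩ := hI τ hτ
      ext x
      apply (algebraMap F Ω).injective
      rw [← hσ x, h p hp A hA σ hσA x]
      rfl
    have ha : (a : F ≃ₐ[ℚ] F) = 1 := key a (fun x => AddSubgroup.mem_inertia.mp a.2 x)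
    have hb : (b : F ≃ₐ[ℚ] F) = 1 := key b (fun x => AddSubgroup.mem_inertia.mp b.2 x)
    exact Subtype.ext (ha.trans hb.symm)
  rw [← Ideal.ramificationIdx_eq_one_iff,
    ← Ideal.ramificationIdxIn_eq_ramificationIdx (P.under ℤ) P (F ≃ₐ[ℚ] F),
    ← Ideal.card_inertia_eq_ramificationIdxIn (G := F ≃ₐ[ℚ] F) (P.under ℤ) P, hcard]

end General

end Fermat.Agent.Lib.KW
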