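/-
Everywhere unramified characters of `G_ℚ` (with open kernel) are trivial; characters with values in
`(ZMod p)ˣ`, unramified outside `p`, which agree with a power of the mod `p` cyclotomic character on
the inertia groups over `p`, ARE that power of the cyclotomic character.
(The global input for the analysis of a reducible `E[p]`: no tame inertia theory is needed.)
-/
import Mathlib
import Fermat.Agent.Lib.KW.Minkowski
import Fermat.Agent.Lib.CFT.RamBridge
import Fermat.Agent.Lib.PT.GLevelTwist

set_option autoImplicit false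

namespace Fermat.Agent.Lib.KW

open NumberField IntermediateField ExtCitation Fermat.Agent.Lib.CFT Fermat.Agent.Lib.PT

local notation "Qbar" => AlgebraicClosure ℚ
local notation "GQ" => (AlgebraicClosure ℚ ≃ₐ[ℚ] AlgebraicClosure ℚ)

/-- **Minkowski for subfields of `Q̄`**: a finite Galois subfield on which all inertia groups act
trivially is `ℚ`. -/
theorem kwn_eq_bot_of_unramified (K : IntermediateField ℚ Qbar) [FiniteDimensional ℚ K]
    [IsGalois ℚ K]
    (h : ∀ ℓ : ℕ, ℓ.Prime → ∀ A : ValuationSubring Qbar, A.LiesOverPrime ℓ →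
      A.inertiaSubgroupIn ℚ ≤ K.fixingSubgroup) : K = ⊥ := by
  have := cfg_isGalois_QBar
  have : NumberField K := ⟨⟩
  have h1 : Module.finrank ℚ K = 1 := by
    refine kwn_finrank_eq_one (Ω := Qbar) (F := K) ?_
    intro ℓ hℓ A hA σ hσ x
    have := h ℓ hℓ A hA hσ
    rw [IntermediateField.mem_fixingSubgroup_iff] at this
    exact this x x.2
  exact IntermediateField.finrank_eq_one_iff.mp h1

/-- **An everywhere unramified character of `G_ℚ` with open kernel is trivial.** -/
theorem kwn_char_eq_one {X : Type*} [Group X] (χ : GQ →* X)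
    (hopen : ∃ F : IntermediateField ℚ Qbar, FiniteDimensional ℚ F ∧ F.fixingSubgroup ≤ χ.ker)
    (h : ∀ ℓ : ℕ, ℓ.Prime → ∀ A : ValuationSubring Qbar, A.LiesOverPrime ℓ →
      A.inertiaSubgroupIn ℚ ≤ χ.ker) : χ = 1 := by
  have := cfg_isGalois_QBar
  obtain ⟨F, hF, hFχ⟩ := hopen
  have hopen' : IsOpen (χ.ker : Set GQ) :=
    Subgroup.isOpen_mono hFχ F.fixingSubgroup_isOpen
  have hclosed : IsClosed (χ.ker : Set GQ) := Subgroup.isClosed_of_isOpen _ hopen'
  set K : IntermediateField ℚ Qbar := IntermediateField.fixedField χ.ker with hK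
  have hfix : K.fixingSubgroup = χ.ker :=
    InfiniteGalois.fixingSubgroup_fixedField ⟨χ.ker, hclosed⟩
  have : FiniteDimensional ℚ K := by
    rw [← InfiniteGalois.isOpen_iff_finite, hfix]
    exact hopen'
  have : IsGalois ℚ K := by
    have h1 := (InfiniteGalois.normal_iff_isGalois K).mp (by rw [hfix]; infer_instance)
    convert h1
    exact Subsingleton.elim _ _
  have hbot : K = ⊥ := kwn_eq_bot_of_unramified K (fun ℓ hℓ A hA => by
    rw [hfix]; exact h ℓ hℓ A hA)
  have htop : χ.ker = ⊤ := by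
    rw [← hfix, hbot]
    exact IntermediateField.fixingSubgroup_bot
  ext σ
  have : σ ∈ χ.ker := by rw [htop]; trivial
  simpa using this

section Cyclo

variable {p : ℕ} [Fact p.Prime]

/-- **Characters unramified outside `p` are determined by their restriction to the inertia groups
over `p`**, cyclotomic case: if `χ : G_ℚ → (ZMod p)ˣ` (open kernel) is unramified outside `p` and
agrees with `ω ^ a` on the inertia groups over `p`, then `χ = ω ^ a`. -/
theorem kwn_char_eq_cyclo_pow (χ : GQ →* (ZMod p)ˣ)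
    (hopen : ∃ F : IntermediateField ℚ Qbar, FiniteDimensional ℚ F ∧ F.fixingSubgroup ≤ χ.ker)
    (hunr : ∀ ℓ : ℕ, ℓ.Prime → ℓ ≠ p → ∀ A : ValuationSubring Qbar, A.LiesOverPrime ℓ →
      A.inertiaSubgroupIn ℚ ≤ χ.ker)
    (a : ℕ)
    (hp : ∀ A : ValuationSubring Qbar, A.LiesOverPrime p → ∀ σ ∈ A.inertiaSubgroupIn ℚ,
      χ σ = cycloChar p σ ^ a) :
    ∀ σ : GQ, χ σ = cycloChar p σ ^ a := by
  -- the character `ψ = χ · ω^{-a}` is everywhere unramified
  let ψ : GQ →* (ZMod p)ˣ := χ * ((cycloChar p) ^ a)⁻¹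
  have hψ : ∀ σ, ψ σ = χ σ * (cycloChar p σ ^ a)⁻¹ := fun σ => rfl
  obtain ⟨F, hF, hFχ⟩ := hopen
  have hψ1 : ψ = 1 := by
    refine kwn_char_eq_one ψ ⟨F ⊔ pta_cycloField p, ?_, ?_⟩ ?_
    · have := hF
      exact IntermediateField.finiteDimensional_sup F (pta_cycloField p)
    · intro σ hσ
      rw [IntermediateField.fixingSubgroup_sup, Subgroup.mem_inf,
        pta_fixingSubgroup_cycloField] at hσ
      have h1 : χ σ = 1 := hFχ hσ.1
      have h2 : cycloChar p σ = 1 := hσ.2
      rw [MonoidHom.mem_ker, hψ, h1, h2]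
      simp
    · intro ℓ hℓ A hA σ hσ
      rw [MonoidHom.mem_ker, hψ]
      by_cases hℓp : ℓ = p
      · subst hℓp
        rw [hp A hA σ hσ]
        simp
      · have h1 : χ σ = 1 := hunr ℓ hℓ hℓp A hA hσ
        have h2 : cycloChar p σ = 1 := pta_cycloChar_unramified hℓ hℓp A hA σ hσ
        rw [h1, h2]
        simp
  intro σ
  have := congrArg (fun f : GQ →* (ZMod p)ˣ => f σ) hψ1
  simp only [MonoidHom.one_apply] at this
  rw [hψ] at this
  exact mul_inv_eq_one.mp this

end Cyclo

end Fermat.Agent.Lib.KW
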