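/-
S13, interface (B) `s13_IfaceLocalP` (local analysis at `p`), independent assembly:
`T := cfh_T₀ P A hA` (helper8's frame: inertia acts trivially on `V ⧸ T`), and if `T = ⊤` then a
proper nonzero Galois-stable `N` would split the abscissae of `V ∖ 0` (on the FROZEN Frey model,
`a₃ = a₆ = 0`) into two nonempty Galois-stable sets of negative valuation, contradicting the
product formula `ent_pf_prime` by `kwr_no_split_ge_vQ`.
-/
import Mathlib
import Fermat.Agent.Lib.S13.Iface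
import Fermat.Agent.Lib.S13.LocD
import Fermat.Agent.Lib.EN.PFPrime
import Fermat.Agent.Lib.EN.FreyCard
import Fermat.Agent.Lib.KW.RatProdGe
import Fermat.Agent.Lib.CFT.RamBridge

set_option autoImplicit false

namespace Fermat.Agent.Lib.KW

open WeierstrassCurve WeierstrassCurve.Affine WeierstrassCurve.Affine.Point
open Fermat.Agent.Lib.Frey Fermat.Agent.Lib.S13 Fermat.Agent.Lib.EN Fermat.Agent.Lib.CFT

local notation "Qb" => AlgebraicClosure ℚ

/-- The abscissa of (the point underlying) an element of `V`. -/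
noncomputable def kwp_X (P : FreyPackage) (x : s13_V P) : Qb :=
  fe1_X (x : (P.freyCurve⁄Qb).Point)

theorem kwp_coe_ne_zero (P : FreyPackage) {x : s13_V P} (hx : x ≠ 0) :
    (x : (P.freyCurve⁄Qb).Point) ≠ 0 := fun h => hx (Subtype.ext h)

/-- An element of `V` with nonzero underlying point is an affine point. -/
theorem kwp_exists_some (P : FreyPackage) {x : s13_V P} (hx : x ≠ 0) :
    ∃ (X Y : Qb) (h : (P.freyCurve⁄Qb).Nonsingular X Y),
      (x : (P.freyCurve⁄Qb).Point) = Point.some X Y h ∧ kwp_X P x = X := by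
  have h0 := kwp_coe_ne_zero P hx
  rcases hpt : (x : (P.freyCurve⁄Qb).Point) with _ | ⟨X, Y, h⟩
  · exact absurd hpt h0
  · exact ⟨X, Y, h, rfl, by rw [kwp_X, hpt]; rfl⟩

theorem kwp_torsion (P : FreyPackage) (x : s13_V P) :
    P.p • (x : (P.freyCurve⁄Qb).Point) = 0 := by
  have := (Submodule.mem_torsionBy_iff _ _).mp x.2
  rwa [natCast_zsmul] at this

/-- The Galois action commutes with taking abscissae. -/
theorem kwp_X_smul (P : FreyPackage) (σ : Qb ≃ₐ[ℚ] Qb) (x : s13_V P) :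
    kwp_X P (σ • x) = σ (kwp_X P x) := by
  rw [kwp_X, kwp_X, cfh_coe_smul]
  rcases (x : (P.freyCurve⁄Qb).Point) with _ | ⟨X, Y, h⟩
  · change fe1_X (σ • (0 : (P.freyCurve⁄Qb).Point)) = σ (fe1_X (0 : (P.freyCurve⁄Qb).Point))
    rw [cfh_smul_eq_sigma, _root_.map_zero, fe1_X_zero, _root_.map_zero]
  · rfl

/-- Two elements of `V` with nonzero points and equal abscissae differ by a sign. -/
theorem kwp_eq_or_eq_neg (P : FreyPackage) {x₁ x₂ : s13_V P} (h₁ : x₁ ≠ 0) (h₂ : x₂ ≠ 0)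
    (hX : kwp_X P x₁ = kwp_X P x₂) : x₂ = x₁ ∨ x₂ = -x₁ := by
  classical
  obtain ⟨X₁, Y₁, hn₁, e₁, f₁⟩ := kwp_exists_some P h₁
  obtain ⟨X₂, Y₂, hn₂, e₂, f₂⟩ := kwp_exists_some P h₂
  rw [f₁, f₂] at hX
  subst hX
  rcases Y_eq_of_X_eq hn₁.1 hn₂.1 rfl with hy | hy
  · left
    apply Subtype.ext
    rw [e₁, e₂]
    subst hy; rfl
  · right
    apply Subtype.ext
    rw [Submodule.coe_neg, e₁, e₂, Point.neg_some, Point.some.injEq]
    refine ⟨rfl, ?_⟩
    rw [hy, negY_negY]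

theorem kwp_frey_a₃ (P : FreyPackage) : (P.freyCurve.baseChange Qb).a₃ = 0 := by
  simp [WeierstrassCurve.baseChange, WeierstrassCurve.map, FreyPackage.freyCurve]

theorem kwp_frey_a₆ (P : FreyPackage) : (P.freyCurve.baseChange Qb).a₆ = 0 := by
  simp [WeierstrassCurve.baseChange, WeierstrassCurve.map, FreyPackage.freyCurve]

theorem kwp_frey_a₄ (P : FreyPackage) :
    (P.freyCurve.baseChange Qb).a₄ * 16 = -(((P.a : ℤ) : Qb) ^ P.p * ((P.b : ℤ) : Qb) ^ P.p) := by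
  simp only [WeierstrassCurve.baseChange, WeierstrassCurve.map, FreyPackage.freyCurve]
  simp only [map_div₀, map_mul, map_neg, map_pow, map_intCast, map_ofNat]
  field_simp

/-- `0 ≤ v (a₄ ^ k)` for the Frey curve at an odd prime. -/
theorem kwp_val_a₄_pow (P : FreyPackage) (A : ValuationSubring Qb) (hA : A.LiesOverPrime P.p)
    (k : ℕ) : 0 ≤ cfh_vp P A hA ((P.freyCurve.baseChange Qb).a₄ ^ k) := by
  have h2 := cfh_vp_two P A hA
  have h16 : cfh_vp P A hA (16 : Qb) = 0 := by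
    have : (16 : Qb) = 2 ^ 4 := by norm_num
    rw [this, AddValuation.map_pow, h2, smul_zero]
  have hnum : 0 ≤ cfh_vp P A hA (-(((P.a : ℤ) : Qb) ^ P.p * ((P.b : ℤ) : Qb) ^ P.p)) := by
    rw [AddValuation.map_neg, AddValuation.map_mul, AddValuation.map_pow, AddValuation.map_pow]
    exact add_nonneg (nsmul_nonneg (cfh_vp_int P A hA _) _) (nsmul_nonneg (cfh_vp_int P A hA _) _)
  rw [← kwp_frey_a₄, AddValuation.map_mul, h16, add_zero] at hnum
  rw [AddValuation.map_pow]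
  exact nsmul_nonneg hnum _

/-- **(B)** of the S13 interface. -/
theorem kwp_ifaceLocalP : s13_IfaceLocalP := by
  intro P A hA
  classical
  refine ⟨cfh_T₀ P A hA, fun σ hσ x => (cfh_mem_T_iff P A hA _).mp (cfh_T_quot P A hA σ hσ x), ?_⟩
  intro hTtop N hN
  by_contra hcon
  rw [not_or] at hcon
  obtain ⟨hNbot, hNtop⟩ := hcon
  -- finiteness of `V`
  have hcard : Nat.card (s13_V P) = P.p ^ 2 := ent_ifaceCard P
  have : Finite (s13_V P) :=
    Nat.finite_of_card_ne_zero (by rw [hcard]; exact pow_ne_zero _ P.pp.ne_zero)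
  letI : Fintype (s13_V P) := Fintype.ofFinite _
  -- every element of `V` lies in the kernel of reduction
  have hall : ∀ x : s13_V P, fl_InE1 (cfh_vp P A hA) (x : (P.freyCurve⁄Qb).Point) := by
    intro x
    have hx : x ∈ cfh_T₀ P A hA := by rw [hTtop]; exact AddSubgroup.mem_top x
    exact hx
  have hnegX : ∀ x : s13_V P, x ≠ 0 → cfh_vp P A hA (kwp_X P x) < 0 := by
    intro x hx
    obtain ⟨X, Y, h, e, f⟩ := kwp_exists_some P hx
    rcases hall x with h0 | ⟨X', Y', h', e', hX'⟩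
    · exact absurd h0 (kwp_coe_ne_zero P hx)
    · rw [e, Point.some.injEq] at e'
      rw [f, e'.1]; exact hX'
  -- the two sets of abscissae
  set S₁ : Finset Qb := (Finset.univ.filter fun x : s13_V P => x ∈ N ∧ x ≠ 0).image (kwp_X P)
    with hS₁def
  set S₂ : Finset Qb := (Finset.univ.filter fun x : s13_V P => x ∉ N).image (kwp_X P)
    with hS₂def
  have hmem₁ : ∀ ξ, ξ ∈ S₁ ↔ ∃ x : s13_V P, (x ∈ N ∧ x ≠ 0) ∧ kwp_X P x = ξ := by
    intro ξ; rw [hS₁def, Finset.mem_image]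
    constructor
    · rintro ⟨x, hx, rfl⟩; exact ⟨x, (Finset.mem_filter.mp hx).2, rfl⟩
    · rintro ⟨x, hx, rfl⟩; exact ⟨x, Finset.mem_filter.mpr ⟨Finset.mem_univ _, hx⟩, rfl⟩
  have hmem₂ : ∀ ξ, ξ ∈ S₂ ↔ ∃ x : s13_V P, x ∉ N ∧ kwp_X P x = ξ := by
    intro ξ; rw [hS₂def, Finset.mem_image]
    constructor
    · rintro ⟨x, hx, rfl⟩; exact ⟨x, (Finset.mem_filter.mp hx).2, rfl⟩
    · rintro ⟨x, hx, rfl⟩; exact ⟨x, Finset.mem_filter.mpr ⟨Finset.mem_univ _, hx⟩, rfl⟩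
  have hne_of_not_mem : ∀ x : s13_V P, x ∉ N → x ≠ 0 := by
    rintro x hx rfl; exact hx N.zero_mem
  -- disjointness
  have hdisj : Disjoint S₁ S₂ := by
    rw [Finset.disjoint_left]
    intro ξ h1 h2
    obtain ⟨x₁, ⟨hx₁N, hx₁0⟩, rfl⟩ := (hmem₁ ξ).mp h1
    obtain ⟨x₂, hx₂N, hX⟩ := (hmem₂ _).mp h2
    rcases kwp_eq_or_eq_neg P hx₁0 (hne_of_not_mem x₂ hx₂N) hX.symm with h | h
    · exact hx₂N (h ▸ hx₁N)
    · exact hx₂N (h ▸ N.neg_mem hx₁N)
  -- nonemptiness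
  have hne₁ : S₁.Nonempty := by
    obtain ⟨x, hxN, hx0⟩ := Submodule.exists_mem_ne_zero_of_ne_bot hNbot
    exact ⟨kwp_X P x, (hmem₁ _).mpr ⟨x, ⟨hxN, hx0⟩, rfl⟩⟩
  have hne₂ : S₂.Nonempty := by
    have : ∃ x : s13_V P, x ∉ N := by
      by_contra hcon
      rw [not_exists] at hcon
      exact hNtop (Submodule.eq_top_iff'.mpr fun x => not_not.mp (hcon x))
    obtain ⟨x, hx⟩ := this
    exact ⟨kwp_X P x, (hmem₂ _).mpr ⟨x, hx, rfl⟩⟩
  -- Galois stability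
  have hS₁ : ∀ σ : Qb ≃ₐ[ℚ] Qb, ∀ ξ ∈ S₁, σ ξ ∈ S₁ := by
    intro σ ξ hξ
    obtain ⟨x, ⟨hxN, hx0⟩, rfl⟩ := (hmem₁ ξ).mp hξ
    refine (hmem₁ _).mpr ⟨σ • x, ⟨hN σ x hxN, ?_⟩, kwp_X_smul P σ x⟩
    intro h0
    exact hx0 ((smul_eq_zero_iff_eq σ).mp h0)
  have hS₂ : ∀ σ : Qb ≃ₐ[ℚ] Qb, ∀ ξ ∈ S₂, σ ξ ∈ S₂ := by
    intro σ ξ hξ
    obtain ⟨x, hxN, rfl⟩ := (hmem₂ ξ).mp hξ
    refine (hmem₂ _).mpr ⟨σ • x, ?_, kwp_X_smul P σ x⟩
    intro hσx
    have := hN σ⁻¹ _ hσx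
    rw [inv_smul_smul] at this
    exact hxN this
  -- negativity
  have hneg₁ : ∀ ξ ∈ S₁, ford_vQ A P.pp hA ξ < 0 := by
    intro ξ hξ
    obtain ⟨x, ⟨-, hx0⟩, rfl⟩ := (hmem₁ ξ).mp hξ
    exact hnegX x hx0
  have hneg₂ : ∀ ξ ∈ S₂, ford_vQ A P.pp hA ξ < 0 := by
    intro ξ hξ
    obtain ⟨x, hxN, rfl⟩ := (hmem₂ ξ).mp hξ
    exact hnegX x (hne_of_not_mem x hxN)
  -- the product formula
  have : (P.freyCurve.baseChange Qb).IsElliptic :=
    inferInstanceAs ((P.freyCurve.map (algebraMap ℚ Qb)).IsElliptic)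
  have hp2 : P.p ≠ 2 := by have := P.hp5; omega
  have hS : ∀ ξ : Qb, ξ ∈ S₁ ∪ S₂ ↔
      ∃ (y : Qb) (h : (P.freyCurve.baseChange Qb).toAffine.Nonsingular ξ y),
        P.p • (Point.some ξ y h) = 0 := by
    intro ξ
    rw [Finset.mem_union, hmem₁, hmem₂]
    constructor
    · rintro (⟨x, ⟨-, hx0⟩, rfl⟩ | ⟨x, hxN, rfl⟩)
      · obtain ⟨X, Y, h, e, f⟩ := kwp_exists_some P hx0
        refine ⟨Y, f ▸ h, ?_⟩
        have := kwp_torsion P x
        rw [e] at this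
        subst f
        exact this
      · obtain ⟨X, Y, h, e, f⟩ := kwp_exists_some P (hne_of_not_mem x hxN)
        refine ⟨Y, f ▸ h, ?_⟩
        have := kwp_torsion P x
        rw [e] at this
        subst f
        exact this
    · rintro ⟨y, h, hp⟩
      have hmemV : (Point.some ξ y h : (P.freyCurve⁄Qb).Point) ∈
          Submodule.torsionBy ℤ (P.freyCurve⁄Qb).Point P.p := by
        rw [Submodule.mem_torsionBy_iff, natCast_zsmul]; exact hp
      set x : s13_V P := ⟨Point.some ξ y h, hmemV⟩ with hx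
      have hxX : kwp_X P x = ξ := rfl
      have hx0 : x ≠ 0 := by
        intro h0
        have := congrArg (Subtype.val) h0
        exact Point.some_ne_zero h this
      by_cases hxN : x ∈ N
      · exact Or.inl ⟨x, ⟨hxN, hx0⟩, hxX⟩
      · exact Or.inr ⟨x, hxN, hxX⟩
  have hPF := ent_pf_prime (P.freyCurve.baseChange Qb) (kwp_frey_a₃ P) (kwp_frey_a₆ P) P.pp hp2
    (S₁ ∪ S₂) hS
  have : IsGalois ℚ Qb := cfg_isGalois_QBar
  exact kwr_no_split_ge_vQ P.pp hA S₁ S₂ hdisj hne₁ hne₂ hS₁ hS₂ hneg₁ hneg₂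
    (kwp_val_a₄_pow P A hA (P.p ^ 2 - 1)) hPF

end Fermat.Agent.Lib.KW
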