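/-
Newton polygon, the part that is needed: if `f = c · ∏ (X - x_i)` has integral coefficients, one of
which is a unit, then `v c + ∑_{v x_i < 0} v x_i = 0`  (`kwn_newton_sum`).

The proof avoids reduction to the residue field: a polynomial is `d`-DISTINGUISHED if its
coefficients are integral, the `d`-th one is a unit and the higher ones have positive valuation;
distinguished polynomials multiply (`kwn_dist_mul`), `X - a` (`a` integral) is `1`-distinguished and
`1 - u X` (`v u > 0`) is `0`-distinguished.
-/
import Mathlib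
import Fermat.Agent.Lib.KW.TameCyclo

set_option autoImplicit false

namespace Fermat.Agent.Lib.KW

open Polynomial Finset Fermat.Agent.Lib.Frey

variable {K : Type*} [Field K] (v : AddValuation K (WithTop ℚ))

/-- `d`-distinguished polynomials. -/
structure kwn_Dist (g : K[X]) (d : ℕ) : Prop where
  int : ∀ k, 0 ≤ v (g.coeff k)
  unit : v (g.coeff d) = 0
  high : ∀ k, d < k → 0 < v (g.coeff k)

theorem kwn_dist_one : kwn_Dist v (1 : K[X]) 0 where
  int k := by
    rw [coeff_one]; split_ifs
    · rw [v.map_one]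
    · rw [v.map_zero]; exact le_top
  unit := by rw [coeff_one_zero, v.map_one]
  high k hk := by
    rw [coeff_one, if_neg hk.ne', v.map_zero]; exact WithTop.top_pos

theorem kwn_dist_X_sub_C {a : K} (ha : 0 ≤ v a) : kwn_Dist v (X - C a) 1 where
  int k := by
    rw [coeff_sub, coeff_X, coeff_C]
    refine v.map_le_sub ?_ ?_
    · split_ifs
      · rw [v.map_one]
      · rw [v.map_zero]; exact le_top
    · split_ifs
      · exact ha
      · rw [v.map_zero]; exact le_top
  unit := by
    rw [coeff_sub, coeff_X_one, coeff_C, if_neg one_ne_zero, sub_zero, v.map_one]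
  high k hk := by
    have h1 : (1 : ℕ) ≠ k := hk.ne
    have h0 : k ≠ 0 := by omega
    rw [coeff_sub, coeff_X, coeff_C, if_neg h1, if_neg h0, sub_zero, v.map_zero]
    exact WithTop.top_pos

theorem kwn_dist_one_sub_mul_X {u : K} (hu : 0 < v u) : kwn_Dist v (1 - C u * X) 0 where
  int k := by
    rw [coeff_sub, coeff_one]
    refine v.map_le_sub ?_ ?_
    · split_ifs
      · rw [v.map_one]
      · rw [v.map_zero]; exact le_top
    · rw [coeff_C_mul, coeff_X, v.map_mul]
      split_ifs
      · rw [v.map_one, add_zero]; exact hu.le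
      · rw [v.map_zero, WithTop.add_top]; exact le_top
  unit := by
    rw [coeff_sub, coeff_one_zero, coeff_C_mul, coeff_X_zero, mul_zero, sub_zero, v.map_one]
  high k hk := by
    rw [coeff_sub, coeff_one, if_neg hk.ne', zero_sub, v.map_neg, coeff_C_mul, coeff_X, v.map_mul]
    split_ifs
    · rw [v.map_one, add_zero]; exact hu
    · rw [v.map_zero, WithTop.add_top]; exact WithTop.top_pos

/-- Distinguished polynomials multiply. -/
theorem kwn_dist_mul {g h : K[X]} {d e : ℕ} (hg : kwn_Dist v g d) (hh : kwn_Dist v h e) :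
    kwn_Dist v (g * h) (d + e) := by
  have hterm : ∀ i j, 0 ≤ v (g.coeff i * h.coeff j) := fun i j => by
    rw [v.map_mul]; exact add_nonneg (hg.int i) (hh.int j)
  have hpos : ∀ i j, (d < i ∨ e < j) → 0 < v (g.coeff i * h.coeff j) := by
    intro i j hij
    rw [v.map_mul]
    rcases hij with hi | hj
    · exact lt_of_lt_of_le (hg.high i hi) (le_add_of_nonneg_right (hh.int j))
    · exact lt_of_lt_of_le (hh.high j hj) (le_add_of_nonneg_left (hg.int i))
  refine ⟨fun k => ?_, ?_, fun k hk => ?_⟩
  · rw [coeff_mul]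
    exact kwn_val_sum_nonneg v _ _ fun x _ => hterm x.1 x.2
  · rw [coeff_mul]
    have hmem : (d, e) ∈ antidiagonal (d + e) := mem_antidiagonal.mpr rfl
    rw [← Finset.add_sum_erase _ _ hmem]
    have h1 : v (g.coeff d * h.coeff e) = 0 := by rw [v.map_mul, hg.unit, hh.unit, add_zero]
    have h2 : 0 < v (∑ x ∈ (antidiagonal (d + e)).erase (d, e), g.coeff x.1 * h.coeff x.2) := by
      refine kwn_val_sum_pos v _ _ fun x hx => hpos x.1 x.2 ?_
      have hx1 := (mem_erase.mp hx).1
      have hx2 := mem_antidiagonal.mp (mem_erase.mp hx).2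
      by_contra hcon
      rw [not_or, not_lt, not_lt] at hcon
      apply hx1
      have : x.1 = d ∧ x.2 = e := by omega
      exact Prod.ext this.1 this.2
    have := v.map_add_eq_of_lt_left (h1 ▸ h2 : v (g.coeff d * h.coeff e) < _)
    change v (g.coeff d * h.coeff e + _) = 0
    rw [this, h1]
  · rw [coeff_mul]
    refine kwn_val_sum_pos v _ _ fun x hx => hpos x.1 x.2 ?_
    have hx2 := mem_antidiagonal.mp hx
    omega

/-- Each linear factor is a constant times a distinguished polynomial. -/
theorem kwn_linear_factor (a : K) :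
    ∃ (e : K) (g : K[X]) (d : ℕ), X - C a = C e * g ∧ kwn_Dist v g d ∧
      v e = (if v a < 0 then v a else 0) := by
  by_cases ha : v a < 0
  · have ha0 : a ≠ 0 := by
      rintro rfl; rw [v.map_zero] at ha; exact not_top_lt ha
    refine ⟨-a, 1 - C a⁻¹ * X, 0, ?_, kwn_dist_one_sub_mul_X v ?_, ?_⟩
    · rw [mul_sub, mul_one, ← mul_assoc, ← C_mul, neg_mul, mul_inv_cancel₀ ha0, C_neg, C_neg, C_1]
      ring
    · rw [v.map_inv]
      obtain ⟨r, hr⟩ := fuc_exists_ex v ha0
      rw [hr] at ha ⊢
      have : r < 0 := by exact_mod_cast ha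
      have h2 : (0 : ℚ) < -r := by linarith
      exact_mod_cast h2
    · rw [if_pos ha, v.map_neg]
  · refine ⟨1, X - C a, 1, by rw [C_1, one_mul], kwn_dist_X_sub_C v (not_lt.mp ha), ?_⟩
    rw [if_neg ha, v.map_one]

/-- The product of the linear factors. -/
theorem kwn_prod_factor (m : Multiset K) :
    ∃ (e : K) (g : K[X]) (d : ℕ), (m.map fun a => X - C a).prod = C e * g ∧ kwn_Dist v g d ∧
      v e = ((m.filter fun a => v a < 0).map v).sum := by
  classical
  induction m using Multiset.induction_on with
  | empty =>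
    exact ⟨1, 1, 0, by simp, kwn_dist_one v, by simp⟩
  | cons a m ih =>
    obtain ⟨e, g, d, h1, h2, h3⟩ := ih
    obtain ⟨e', g', d', h1', h2', h3'⟩ := kwn_linear_factor v a
    refine ⟨e' * e, g' * g, d' + d, ?_, kwn_dist_mul v h2' h2, ?_⟩
    · rw [Multiset.map_cons, Multiset.prod_cons, h1, h1', C_mul]; ring
    · rw [v.map_mul, h3, h3', Multiset.filter_cons]
      split_ifs
      · rw [Multiset.map_add, Multiset.sum_add, Multiset.map_singleton, Multiset.sum_singleton]
      · rw [zero_add, zero_add]

/-- **Newton polygon, sum form.**  If `f = c ∏ (X - x_i)` is integral with a unit coefficient,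
then `v c + ∑_{v x_i < 0} v x_i = 0`. -/
theorem kwn_newton_sum {f : K[X]} {c : K} {m : Multiset K}
    (hf : f = C c * (m.map fun a => X - C a).prod) (hint : ∀ k, 0 ≤ v (f.coeff k))
    {k₀ : ℕ} (hunit : v (f.coeff k₀) = 0) :
    v c + ((m.filter fun a => v a < 0).map v).sum = 0 := by
  obtain ⟨e, g, d, h1, h2, h3⟩ := kwn_prod_factor v m
  rw [← h3, ← v.map_mul]
  have hf' : f = C (c * e) * g := by rw [hf, h1, C_mul, mul_assoc]
  have hco : ∀ k, v (f.coeff k) = v (c * e) + v (g.coeff k) := fun k => by
    rw [hf', coeff_C_mul, v.map_mul]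
  refine le_antisymm ?_ ?_
  · have := hco k₀
    rw [hunit] at this
    rw [this]
    exact le_add_of_nonneg_right (h2.int k₀)
  · have := hco d
    rw [h2.unit, add_zero] at this
    rw [← this]; exact hint d

end Fermat.Agent.Lib.KW
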