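/-
Abstract form of "inertia at `p` acts on the kernel of reduction of `E[p]` through the mod-`p`
cyclotomic character" (no formal groups: `frd_t_nsmul` is the formal group to first order).

`(K, v)` a field with a `ℚ`-valued valuation of residue characteristic `p`, `W` a short integral
Weierstrass model, `P = (x, y)` a point of the kernel of reduction with
`v (x / y) = v (ζ - 1)` (`ζ` a primitive `p`-th root of unity), `σ` an endomorphism of `K`
preserving `v`, trivial on the residue field, fixing the coefficients of `W`, with `σ ζ = ζ ^ k`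
and `σ P = j • P`.  Then `j ≡ k mod p`  (`kwn_tame_line`).
-/
import Mathlib
import Fermat.Agent.Lib.Frey.E1TorsionT
import Fermat.Agent.Lib.KW.TameCyclo

set_option autoImplicit false

namespace Fermat.Agent.Lib.KW

open WeierstrassCurve WeierstrassCurve.Affine WeierstrassCurve.Affine.Point
open Fermat.Agent.Lib.Frey

variable {K : Type*} [Field K] [DecidableEq K] (v : AddValuation K (WithTop ℚ))
  {W : WeierstrassCurve K}

/-- `t (σ P) = σ (t P)`. -/
theorem kwn_t_sigma (σ : K →+* K) (hW : W.map σ = W) (P : W.toAffine.Point) :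
    frd_t (fab_sigma σ W hW P) = σ (frd_t P) := by
  rcases P with _ | ⟨x, y, h⟩
  · change frd_t (fab_sigma σ W hW 0) = σ (frd_t (0 : W.toAffine.Point))
    rw [_root_.map_zero, frd_t_zero, _root_.map_zero]
  · rw [fab_sigma_some, frd_t_some, frd_t_some, map_div₀]

/-- **Inertia acts on a line of the kernel of reduction through the cyclotomic character.** -/
theorem kwn_tame_line (h1 : W.a₁ = 0) (h3 : W.a₃ = 0) (ha2 : 0 ≤ v W.a₂) (ha4 : 0 ≤ v W.a₄)
    (ha6 : 0 ≤ v W.a₆) {p : ℕ} (hp : p.Prime) {ζ : K} (hζ : IsPrimitiveRoot ζ p)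
    (hvp : 0 < v (p : K)) (hvn : ∀ n : ℤ, 0 < v (n : K) → (p : ℤ) ∣ n)
    (σ : K →+* K) (hW : W.map σ = W) (hσv : ∀ a, v (σ a) = v a)
    (hσI : ∀ a, 0 ≤ v a → 0 < v (σ a - a)) {k : ℕ} (hk : σ ζ = ζ ^ k)
    {x y : K} (h : W.toAffine.Nonsingular x y) (hx : v x < 0) (ht : v (x / y) = v (ζ - 1))
    {j : ℕ} (hj : fab_sigma σ W hW (Point.some x y h) = j • Point.some x y h) :
    (j : ZMod p) = (k : ZMod p) := by
  obtain ⟨s, hs, -⟩ := kwn_val_lambda v hp hζ
  have hts : v (x / y) = (s : WithTop ℚ) := ht.trans hs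
  -- `σ t ≡ j t`
  have e1 := frd_t_nsmul v h1 h3 ha2 ha4 ha6 h hx hts j
  rw [← hj, kwn_t_sigma, frd_t_some] at e1
  -- `σ t ≡ k t`
  have e2 := kwn_tame v hp hζ hvp σ hσv hσI hk hs hts
  -- hence `(j - k) t ≡ 0`
  have e3 : (s : WithTop ℚ) < v ((((j : ℤ) - (k : ℤ) : ℤ) : K) * (x / y)) := by
    have : (((j : ℤ) - (k : ℤ) : ℤ) : K) * (x / y) =
        (σ (x / y) - (k : K) * (x / y)) - (σ (x / y) - (j : K) * (x / y)) := by
      push_cast; ring
    rw [this]
    exact lt_of_lt_of_le (lt_min e2 e1) (v.map_sub _ _)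
  have e4 : 0 < v ((((j : ℤ) - (k : ℤ) : ℤ)) : K) := by
    by_contra hcon
    have hle : v ((((j : ℤ) - (k : ℤ) : ℤ)) : K) ≤ 0 := not_lt.mp hcon
    rw [v.map_mul, hts] at e3
    have : v ((((j : ℤ) - (k : ℤ) : ℤ)) : K) + (s : WithTop ℚ) ≤ 0 + (s : WithTop ℚ) :=
      add_le_add_left hle _
    rw [zero_add] at this
    exact absurd e3 (not_lt.mpr this)
  have e5 := hvn _ e4
  have e6 : (((j : ℤ) : ZMod p)) = ((k : ℤ) : ZMod p) := by
    rw [ZMod.intCast_eq_intCast_iff_dvd_sub]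
    have : (k : ℤ) - (j : ℤ) = -((j : ℤ) - (k : ℤ)) := by ring
    rw [this]; exact (dvd_neg).mpr e5
  exact_mod_cast e6

/-- Variant: the hypothesis on `v (x / y)` in the form `(p - 1) · v (x / y) = v p`. -/
theorem kwn_tame_line' (h1 : W.a₁ = 0) (h3 : W.a₃ = 0) (ha2 : 0 ≤ v W.a₂) (ha4 : 0 ≤ v W.a₄)
    (ha6 : 0 ≤ v W.a₆) {p : ℕ} (hp : p.Prime) {ζ : K} (hζ : IsPrimitiveRoot ζ p)
    (hvp : 0 < v (p : K)) (hvn : ∀ n : ℤ, 0 < v (n : K) → (p : ℤ) ∣ n)
    (σ : K →+* K) (hW : W.map σ = W) (hσv : ∀ a, v (σ a) = v a)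
    (hσI : ∀ a, 0 ≤ v a → 0 < v (σ a - a)) {k : ℕ} (hk : σ ζ = ζ ^ k)
    {x y : K} (h : W.toAffine.Nonsingular x y) (hx : v x < 0) {r : ℚ}
    (ht : v (x / y) = (r : WithTop ℚ)) (hr : v (p : K) = ((((p : ℚ) - 1) * r : ℚ) : WithTop ℚ))
    {j : ℕ} (hj : fab_sigma σ W hW (Point.some x y h) = j • Point.some x y h) :
    (j : ZMod p) = (k : ZMod p) := by
  refine kwn_tame_line v h1 h3 ha2 ha4 ha6 hp hζ hvp hvn σ hW hσv hσI hk h hx ?_ hj
  obtain ⟨s, hs, hps⟩ := kwn_val_lambda v hp hζ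
  rw [ht, hs]
  have h2 : ((p : ℚ) - 1) * r = ((p : ℚ) - 1) * s := by
    have := hr.symm.trans hps
    exact_mod_cast this
  have h3 : ((p : ℚ) - 1) ≠ 0 := by
    have : (1 : ℚ) < p := by exact_mod_cast hp.one_lt
    linarith
  rw [mul_left_cancel₀ h3 h2]

end Fermat.Agent.Lib.KW
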